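import Fermat.Agent.OrdinaryAtP.Basic
import Fermat.Agent.RT.MazurP.Classes
import Fermat.Agent.NewformLocal.Toric.Frobenius
import Fermat.Agent.Arith.RootsOfUnity

/-!
# Classes of `p`-power order with trivial reductions on both components

A class killed by `m = pⁿ` at level `p M` is flat if it has a Kummer function with both reductions
one. Moved classes are flat, constant reductions suffice, and a flat class killed by `p` is flat
modulo `p`.
-/

set_option autoImplicit false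
set_option synthInstance.maxHeartbeats 400000
set_option maxHeartbeats 1000000
set_option linter.unusedSectionVars false

noncomputable section

namespace Fermat.Agent.RT.Lift.AtP

open AlgebraicCurve ModularCurve Fermat.Agent.Semistable Fermat.Agent.RT.MazurP
open Fermat.Agent.OrdinaryAtP (HasUnitRed IsFlatClass)
open NewformLocal.Toric (mem_of_algebraMap_mem_locS)
open Arith (QBar GQ)

variable {A : ValuationSubring QBar} {M p : ℕ} [NeZero M] [hp : Fact p.Prime]

/-- A root of `p`-power order of a series with reduction one has reduction one. -/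
theorem redL_eq_one_of_pow [CharP (Res A) p] (hA : A.LiesOverPrime p) {y : LSer}
    (hy : y ∈ fracS A) {k : ℕ} (hyk : y ^ p ^ k ∈ locS A) (hred : redL A ⟨_, hyk⟩ = 1) :
    ∃ h : y ∈ locS A, redL A ⟨y, h⟩ = 1 := by
  set K := p ^ k with hK
  have hK0 : K ≠ 0 := pow_ne_zero _ hp.out.ne_zero
  have hy0 : y ≠ 0 := fun h0 => one_ne_zero (hred.symm.trans (by
    rw [show (⟨_, hyk⟩ : locS A) = 0 from Subtype.ext (show y ^ K = 0 by rw [h0, zero_pow hK0]), map_zero]))
  obtain ⟨c, hc, hcy, hcr⟩ := exists_scale hA hp.out hy hy0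
  obtain ⟨hi, -⟩ := inv_mem_locS hyk (by rw [hred]; exact one_ne_zero)
  obtain ⟨hci, -⟩ := inv_mem_locS hcy hcr
  have hyK : y ^ K ≠ 0 := pow_ne_zero _ hy0
  have h1 : c ^ K ∈ A := mem_of_algebraMap_mem_locS (A := A) (by
    have := mul_mem (pow_mem hcy K) hi
    rwa [mul_pow, mul_assoc, mul_inv_cancel₀ hyK, mul_one, ← map_pow] at this)
  have h2 : (c ^ K)⁻¹ ∈ A := mem_of_algebraMap_mem_locS (A := A) (by
    have := mul_mem (pow_mem hci K) hyk
    rw [inv_pow, mul_pow, mul_inv, mul_assoc, inv_mul_cancel₀ hyK, mul_one, ← map_pow,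
      ← map_inv₀] at this
    exact this)
  have hval : A.valuation c = 1 := by
    have h3 : A.valuation c ^ K = 1 := by
      rw [← map_pow]
      refine le_antisymm ((A.valuation_le_one_iff _).mpr h1) ?_
      have h4 := (A.valuation_le_one_iff _).mpr h2
      rw [map_inv₀] at h4
      exact (inv_le_one₀ (zero_lt_iff.mpr ((Valuation.ne_zero_iff _).mpr (pow_ne_zero _ hc)))).mp h4
    exact (pow_eq_one_iff.mp h3).resolve_right hK0
  have hcA : c⁻¹ ∈ A := by rw [← A.valuation_le_one_iff, map_inv₀, hval, inv_one]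
  have e : algebraMap QBar LSer c⁻¹ * (algebraMap QBar LSer c * y) = y := by
    rw [← mul_assoc, ← map_mul, inv_mul_cancel₀ hc, map_one, one_mul]
  have h : y ∈ locS A := e ▸ mul_mem (algebraMap_mem_locS hcA) hcy
  refine ⟨h, sub_eq_zero.mp ((pow_eq_zero_iff hK0).mp ?_)⟩
  have : CharP (LaurentSeries (Res A)) p :=
    charP_of_injective_algebraMap (algebraMap (Res A) _).injective p
  rw [hK, sub_pow_char_pow, one_pow, ← map_pow, show (⟨y, h⟩ : locS A) ^ p ^ k = ⟨_, hyk⟩ from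
    Subtype.ext rfl, hred, sub_self]

variable (A M p) in
/-- A class with a Kummer function modulo `m` with both reductions one. -/
def IsFlat (hpM : ¬ p ∣ M) (m : ℕ) [NeZero m] (x : JZero (p * M)) : Prop :=
  ∃ (f : FB (p * M)) (hf : f ≠ 0) (hd : ∀ v : Place QBar (FB (p * M)), (m : ℤ) ∣ v.ord f),
    cls m hf hd = x ∧ HasUnitRed A M p hpM f

/-- The class of a function from its divisor. -/
theorem cls_eq_mk {N m : ℕ} [NeZero N] [NeZero m] {f : FB N} (hf : f ≠ 0)
    (hd : ∀ v : Place QBar (FB N), (m : ℤ) ∣ v.ord f)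
    (E : Divisor.degZero (K := QBar) (F := FB N))
    (hE : ∀ v, v.ord f = (m : ℤ) * (E : Divisor QBar (FB N)) v) :
    cls m hf hd = Pic0.mk E := by
  refine congrArg Pic0.mk (Subtype.ext (JacTorsion.eq_of_smul_eq (m := m) ?_))
  show (m : ℤ) • JacTorsion.divQuot _ = (m : ℤ) • (E : Divisor QBar (FB N))
  rw [JacTorsion.smul_divQuot]
  refine Finsupp.ext fun v => ?_
  rw [JacTorsion.div_apply, Finsupp.smul_apply, smul_eq_mul]
  exact hE v

variable (hpM : ¬ p ∣ M) {m : ℕ} [NeZero m]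

theorem isFlat_zero : IsFlat A M p hpM m 0 := by
  have hd : ∀ v : Place QBar (FB (p * M)), (m : ℤ) ∣ v.ord (1 : FB (p * M)) := fun v => by
    rw [v.ord_one]; exact dvd_zero _
  have h1 : (1 : FB (p * M)) ≠ 0 := one_ne_zero
  exact ⟨1, h1, hd, (cls_eq_zero_iff h1 hd).mpr ⟨1, h1, (one_pow m).symm⟩,
    OrdinaryAtP.hasUnitRed_one hpM⟩

theorem IsFlat.add {x y : JZero (p * M)} (hx : IsFlat A M p hpM m x)
    (hy : IsFlat A M p hpM m y) : IsFlat A M p hpM m (x + y) := by
  obtain ⟨f, hf, hfd, rfl, hfr⟩ := hx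
  obtain ⟨g, hg, hgd, rfl, hgr⟩ := hy
  have hd : ∀ v : Place QBar (FB (p * M)), (m : ℤ) ∣ v.ord (f * g) := fun v => by
    rw [v.ord_mul hf hg]; exact dvd_add (hfd v) (hgd v)
  exact ⟨f * g, mul_ne_zero hf hg, hd, cls_mul hf hg hfd hgd hd, hfr.mul hpM hgr⟩

theorem IsFlat.neg {x : JZero (p * M)} (hx : IsFlat A M p hpM m x) :
    IsFlat A M p hpM m (-x) := by
  obtain ⟨f, hf, hfd, rfl, hfr⟩ := hx
  have hd : ∀ v : Place QBar (FB (p * M)), (m : ℤ) ∣ v.ord f⁻¹ := fun v => by
    rw [v.ord_inv]; exact (hfd v).neg_right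
  refine ⟨f⁻¹, inv_ne_zero hf, hd, ?_, hfr.inv hpM⟩
  refine eq_neg_of_add_eq_zero_left ?_
  have hd1 : ∀ v : Place QBar (FB (p * M)), (m : ℤ) ∣ v.ord (f⁻¹ * f) := fun v => by
    rw [inv_mul_cancel₀ hf, v.ord_one]; exact dvd_zero _
  rw [← cls_mul (inv_ne_zero hf) hf hd hfd hd1]
  exact (cls_eq_zero_iff _ hd1).mpr ⟨1, one_ne_zero, by rw [inv_mul_cancel₀ hf, one_pow]⟩

variable (A M p) in
/-- The group of flat classes. -/
def flatGroup (m : ℕ) [NeZero m] : AddSubgroup (JZero (p * M)) where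
  carrier := {x | IsFlat A M p hpM m x}
  add_mem' := IsFlat.add hpM
  zero_mem' := isFlat_zero hpM
  neg_mem' := IsFlat.neg hpM

theorem mem_flatGroup {x : JZero (p * M)} :
    x ∈ flatGroup A M p hpM m ↔ IsFlat A M p hpM m x := Iff.rfl

/-- Galois elements of the decomposition group preserve flat classes. -/
theorem IsFlat.smul {σ : GQ} {φ : Res A →+* Res A} (hσ : ResLift A σ φ) {x : JZero (p * M)}
    (hx : IsFlat A M p hpM m x) : IsFlat A M p hpM m (σ • x) := by
  obtain ⟨f, hf, hfd, rfl, hl, hr⟩ := hx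
  obtain ⟨hl', hr'⟩ := hσ.galF_mem_loc2 M p hpM ⟨f, hl⟩
  refine ⟨_, galF_ne_zero σ hf, dvd_ord_galF σ hfd, (smul_cls σ hf hfd).symm, hl', funext fun s => ?_⟩
  rw [hr', hr, Pi.one_apply, map_one]

variable [CharP (Res A) p]

/-- Constant nonzero reductions suffice. -/
theorem isFlat_of_const (hM : (M : Res A) ≠ 0) {f : FB (p * M)}
    (hf : f ≠ 0) (hd : ∀ v : Place QBar (FB (p * M)), (m : ℤ) ∣ v.ord f)
    (hl : f ∈ loc2 A (iota2 M p hpM)) (a : Fin 2 → Res A) (ha : ∀ s, a s ≠ 0)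
    (hr : ∀ s, red2 A (iota2 M p hpM) ⟨f, hl⟩ s = algebraMap (Res A) _ (a s)) :
    IsFlat A M p hpM m (cls m hf hd) := by
  have : IsAlgClosed (Res A) := Arith.residueField_isAlgClosed A
  choose b hb using fun s => IsAlgClosed.exists_pow_nat_eq (a s) (NeZero.pos m)
  have hb0 : ∀ s, b s ≠ 0 := fun s h0 => ha s (by rw [← hb s, h0, zero_pow (NeZero.ne m)])
  obtain ⟨u, hu⟩ := red2_surjective M p hpM hM
    (IntermediateField.algebraMap_mem (KM A M) (b 0)) (IntermediateField.algebraMap_mem (KM A M) (b 1))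
  have hus : ∀ s, red2 A (iota2 M p hpM) u s = algebraMap (Res A) _ (b s) := fun s => by
    rw [hu]; fin_cases s <;> rfl
  have hu0 : (u : FB (p * M)) ≠ 0 := fun h0 => by
    have := hus 0
    rw [show u = 0 from Subtype.ext h0, map_zero] at this
    exact hb0 0 ((map_eq_zero _).mp this.symm)
  obtain ⟨hui, huir⟩ := inv_mem_loc2 (iota2 M p hpM) u
    (fun s => by rw [hus]; exact (map_ne_zero _).mpr (hb0 s))
  set w := (u : FB (p * M))⁻¹ with hw
  have hw0 : w ≠ 0 := inv_ne_zero hu0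
  have hd' : ∀ v : Place QBar (FB (p * M)), (m : ℤ) ∣ v.ord (f * w ^ m) := fun v => by
    rw [v.ord_mul hf (pow_ne_zero _ hw0), FF.ord_pow v]
    exact dvd_add (hd v) (dvd_mul_right _ _)
  have hwd : ∀ v : Place QBar (FB (p * M)), (m : ℤ) ∣ v.ord (w ^ m) := fun v => by
    rw [FF.ord_pow v]; exact dvd_mul_right _ _
  refine ⟨f * w ^ m, mul_ne_zero hf (pow_ne_zero _ hw0), hd', ?_, mul_mem hl (pow_mem hui m), ?_⟩
  · rw [cls_mul hf (pow_ne_zero _ hw0) hd hwd hd',
      (cls_eq_zero_iff _ hwd).mpr ⟨w, hw0, rfl⟩, add_zero]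
  · funext s
    rw [show (⟨f * w ^ m, mul_mem hl (pow_mem hui m)⟩ : loc2 A (iota2 M p hpM)) =
      ⟨f, hl⟩ * ⟨w, hui⟩ ^ m from rfl, map_mul, map_pow, Pi.mul_apply, Pi.pow_apply, hr, huir,
      hus, inv_pow, ← map_pow, hb, mul_inv_cancel₀ ((map_ne_zero _).mpr (ha s)), Pi.one_apply]

/-- A flat class killed by `p` is flat modulo `p`. -/
theorem IsFlat.isFlatClass (hA : A.LiesOverPrime p) {n : ℕ} [NeZero (p ^ n)] {x : JZero (p * M)}
    (hx : IsFlat A M p hpM (p ^ n) x) (hpx : p • x = 0) : IsFlatClass A M p hpM x := by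
  cases n with
  | zero =>
    obtain ⟨f, hf, hd, rfl, -⟩ := hx
    have h1 := nsmul_cls hf hd
    have h1' : cls (p ^ 0) hf hd = 0 := by simpa using h1
    rw [h1']
    exact OrdinaryAtP.isFlatClass_zero hpM
  | succ k =>
    obtain ⟨f, hf, hd, rfl, hl, hr⟩ := hx
    have : NeZero p := ⟨hp.out.ne_zero⟩
    obtain ⟨g₀, hg₀⟩ := JacTorsion.toTorsion_surjective
      (⟨cls (p ^ (k + 1)) hf hd, by rw [Pic0.mem_torsion, natCast_zsmul]; exact hpx⟩ :
        Pic0.torsion QBar (FB (p * M)) p)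
    set g : FB (p * M) := ((g₀.toMul : (FB (p * M))ˣ) : FB (p * M))
    have hg : g ≠ 0 := Units.ne_zero _
    have hgd : ∀ v : Place QBar (FB (p * M)), (p : ℤ) ∣ v.ord g := g₀.toMul.2
    have hgc : cls p hg hgd = cls (p ^ (k + 1)) hf hd := by
      have h1 : ((JacTorsion.toTorsion g₀ : Pic0.torsion QBar (FB (p * M)) p) : JZero (p * M)) =
          cls (p ^ (k + 1)) hf hd := congrArg Subtype.val hg₀
      rw [← h1]
      exact congrArg (fun z => ((JacTorsion.toTorsion (Additive.ofMul z) :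
        Pic0.torsion QBar (FB (p * M)) p) : JZero (p * M))) (Subtype.ext (Units.ext rfl))
    -- powers of `g` represent the same class modulo `p ^ (k + 1)`
    have hkd : ∀ v : Place QBar (FB (p * M)), ((p ^ (k + 1) : ℕ) : ℤ) ∣ v.ord (g ^ p ^ k) :=
      fun v => by
        rw [FF.ord_pow v, pow_succ, Nat.cast_mul]
        exact mul_dvd_mul_left _ (hgd v)
    set D : Divisor.degZero (K := QBar) (F := FB (p * M)) :=
      ⟨JacTorsion.divQuot g₀.toMul, JacTorsion.divQuot_mem_degZero _⟩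
    have hgD : ∀ v : Place QBar (FB (p * M)), v.ord g = (p : ℤ) * (D : Divisor QBar _) v := by
      intro v
      rw [← JacTorsion.div_apply, ← JacTorsion.smul_divQuot g₀.toMul, Finsupp.smul_apply,
        smul_eq_mul]
    have hkc : cls (p ^ (k + 1)) (pow_ne_zero _ hg) hkd = cls (p ^ (k + 1)) hf hd := by
      rw [← hgc, cls_eq_mk _ hkd D (fun v => by
        rw [FF.ord_pow v, hgD, pow_succ, Nat.cast_mul, mul_assoc]),
        cls_eq_mk hg hgd D hgD]
    obtain ⟨q, hq, e⟩ := exists_eq_mul_pow _ _ _ _ hkc.symm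
    set g' := g * q ^ p with hg'
    have hg'0 : g' ≠ 0 := mul_ne_zero hg (pow_ne_zero _ hq)
    have efg : f = g' ^ p ^ k := by
      rw [e, hg', mul_pow, ← pow_mul, ← pow_succ']
    have hqd : ∀ v : Place QBar (FB (p * M)), (p : ℤ) ∣ v.ord (q ^ p) := fun v => by
      rw [FF.ord_pow v]; exact dvd_mul_right _ _
    have hg'd : ∀ v : Place QBar (FB (p * M)), (p : ℤ) ∣ v.ord g' := fun v => by
      rw [hg', v.ord_mul hg (pow_ne_zero _ hq)]
      exact dvd_add (hgd v) (hqd v)
    have hside : ∀ s, ∃ h : iota2 M p hpM s g' ∈ locS A, redL A ⟨_, h⟩ = 1 := by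
      intro s
      have hmem : iota2 M p hpM s g' ^ p ^ k ∈ locS A := by
        rw [← map_pow, ← efg]; exact (mem_loc2 _).mp hl s
      refine redL_eq_one_of_pow hA (iota2_fracS M p hpM s g') hmem ?_
      have h1 := congrFun hr s
      rw [red2_apply, Pi.one_apply] at h1
      rw [← h1]
      exact redL_congr _ _ (by rw [← map_pow, ← efg])
    refine ⟨⟨Units.mk0 g' hg'0, hg'd⟩, ?_, (mem_loc2 _).mpr fun s => (hside s).1,
      funext fun s => ?_⟩
    · refine Eq.trans ?_ hgc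
      show cls p hg'0 hg'd = _
      rw [cls_mul hg (pow_ne_zero _ hq) hgd hqd hg'd,
        (cls_eq_zero_iff _ hqd).mpr ⟨q, hq, rfl⟩, add_zero]
    · rw [red2_apply, Pi.one_apply]
      exact (redL_congr _ _ rfl).trans (hside s).2

variable [FF.IsFunctionField (Res A) (KM A M)]

/-- Classes moved by inertia are flat. -/
theorem isFlat_moved (h : Setup A M p) {τ : GQ} (hτ : τ ∈ A.inertiaSubgroupIn ℚ)
    {x : JZero (p * M)} (hx : m • x = 0) : IsFlat A M p h.hqM m (τ • x - x) := by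
  obtain ⟨f, hfx⟩ := JacTorsion.toTorsion_surjective
    (⟨x, by rw [Pic0.mem_torsion, natCast_zsmul]; exact hx⟩ : Pic0.torsion QBar (FB (p * M)) m)
  set D : Divisor QBar (FB (p * M)) := JacTorsion.divQuot f.toMul
  set d : Divisor.degZero (K := QBar) (F := FB (p * M)) :=
    ⟨D, JacTorsion.divQuot_mem_degZero f.toMul⟩
  set g := arithmeticGalois (modularFunctionFieldFull (p * M)) τ
  have hord : ∀ v : Place QBar (FB (p * M)),
      v.ord ((f.toMul : (FB (p * M))ˣ) : FB (p * M)) = (m : ℤ) * D v := fun v => by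
    rw [← JacTorsion.div_apply, ← JacTorsion.smul_divQuot f.toMul, Finsupp.smul_apply, smul_eq_mul]
  obtain ⟨a, ha, F, hF, hFr⟩ := h.hasKummer_inertia hτ (Units.ne_zero _) hord
  have hF0 : (F : FB (p * M)) ≠ 0 := fun h0 => ha 0 (by
    have := hFr 0
    rw [show F = 0 from Subtype.ext h0, map_zero] at this
    exact (map_eq_zero _).mp this.symm)
  have hFd : ∀ v : Place QBar (FB (p * M)), (m : ℤ) ∣ v.ord (F : FB (p * M)) := fun v => by
    rw [hF v]; exact dvd_mul_right _ _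
  have hxd : x = Pic0.mk d := (congrArg Subtype.val hfx).symm
  have e : τ • x - x = cls m hF0 hFd := by
    rw [cls_eq_mk hF0 hFd (SemilinearAut.degZeroSMulHom g d - d) hF, hxd]
    rfl
  rw [e]
  exact isFlat_of_const h.hqM h.hM hF0 hFd F.2 a ha hFr

end Fermat.Agent.RT.Lift.AtP

end
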