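import Fermat.Agent.RT.Lift.AtP.Family
import Fermat.Agent.CFT.Tangent.LocalPlace
import Fermat.Agent.EC.Rep.Local.Line

/-!
# Strict ordinarity of systems which are new at `p`
-/

set_option autoImplicit false
set_option linter.unusedSectionVars false

noncomputable section

namespace Fermat.Agent.RT.Lift.AtP

open Module IsLocalRing CongruenceSubgroup
open Fermat.Agent.GaloisReps
open Arith (QBar GQ)
open scoped Pointwise

/-- At finite level a decomposition group is generated by a Frobenius element and inertia. -/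
theorem exists_frobenius_mul_inertia_at {p : ℕ} [Fact p.Prime] {P : ValuationSubring QBar}
    (hP : P.LiesOverPrime p) (L : IntermediateField ℚ QBar) [FiniteDimensional ℚ L]
    {F : GQ} (hF : P.IsFrobeniusAt F p) {σ : GQ} (hσ : σ ∈ P.decompositionSubgroup ℚ) :
    ∃ i : ℕ, ∃ τ ∈ P.inertiaSubgroupIn ℚ, ∀ x ∈ L, σ x = (F ^ i * τ) x := by
  obtain ⟨g, hg⟩ := Arith.exists_smul_eq (CFT.Local.padicPlace_liesOverPrime p) hP Fact.out
  have hgi : g⁻¹ • P = padicPlace p := by rw [← hg, inv_smul_smul]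
  have : Normal ℚ QBar := IsAlgClosure.normal ℚ QBar
  set L' := IntermediateField.normalClosure ℚ L QBar with hL'
  have : Normal ℚ L' := normalClosure.normal ℚ L QBar
  have hF' : (padicPlace p).IsFrobeniusAt (g⁻¹ * F * g) p := by
    have := Arith.isFrobeniusAt_conj (g := g⁻¹) hF
    rwa [hgi, inv_inv] at this
  have hσ' : g⁻¹ * σ * g ∈ (padicPlace p).decompositionSubgroup ℚ := by
    rw [Arith.mem_decomposition_iff] at hσ ⊢
    rw [mul_smul, mul_smul, hg, hσ, hgi]
  obtain ⟨i, τ, hτ, h⟩ := CFT.Tangent.exists_frobenius_mul_inertia L' hF' hσ'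
  refine ⟨i, g * τ * g⁻¹, ?_, fun x hx => ?_⟩
  · rw [← hg]
    exact Arith.mem_inertia_smul_iff.mpr hτ
  · have hx' : g⁻¹ x ∈ L' :=
      ((g⁻¹ : GQ).toAlgHom.comp L.val).fieldRange_le_normalClosure ⟨⟨x, hx⟩, rfl⟩
    have h1 := h (g⁻¹ x) hx'
    have hconj : (g⁻¹ * F * g) ^ i = g⁻¹ * F ^ i * g := by
      have h3 := conj_pow (a := g⁻¹) (b := F) (i := i)
      rwa [inv_inv] at h3
    rw [hconj] at h1
    have h4 := congrArg (fun y => g y) h1
    simp only [AlgEquiv.mul_apply] at h4 ⊢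
    simpa only [← AlgEquiv.mul_apply, mul_inv_cancel, mul_inv_cancel_left, mul_assoc,
      AlgEquiv.one_apply, mul_one] using h4

variable {T : Type} [CommRing T] [IsLocalRing T] [IsNoetherianRing T]

theorem exists_quotient_character {V : Type} [AddCommGroup V] [Module T V] (b : Basis (Fin 2) T V)
    (f : Module.End T V) (hf : f (b 0) ∈ T ∙ b 0) :
    ∀ v, f v - (b.repr (f (b 1)) 1) • v ∈ T ∙ b 0 := by
  intro v
  obtain ⟨c, hc⟩ := Submodule.mem_span_singleton.mp hf
  have hexp : ∀ w : V, w = b.repr w 0 • b 0 + b.repr w 1 • b 1 := fun w =>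
    (b.sum_repr w).symm.trans (Fin.sum_univ_two _)
  refine Submodule.mem_span_singleton.mpr
    ⟨b.repr v 0 * c + b.repr v 1 * b.repr (f (b 1)) 0 - b.repr (f (b 1)) 1 * b.repr v 0, ?_⟩
  have hfv : f v = b.repr v 0 • (c • b 0) + b.repr v 1 •
      (b.repr (f (b 1)) 0 • b 0 + b.repr (f (b 1)) 1 • b 1) := by
    rw [hc, ← hexp, ← f.map_smul, ← f.map_smul, ← f.map_add, ← hexp]
  rw [hfv]
  conv_rhs => arg 2; arg 2; rw [hexp v]
  module

theorem repr_one_eq_of_sub_mem {V : Type} [AddCommGroup V] [Module T V] (b : Basis (Fin 2) T V)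
    {w : V} (hw : w ∈ T ∙ b 0) : b.repr w 1 = 0 := by
  obtain ⟨c, rfl⟩ := Submodule.mem_span_singleton.mp hw
  rw [LinearEquiv.map_smul, b.repr_self, Finsupp.smul_apply,
    Finsupp.single_eq_of_ne (Fin.zero_ne_one).symm, smul_zero]

variable {M p : ℕ} [NeZero M] [Fact p.Prime]

/-- Systems which are new at `p` are strictly ordinary at `p`. -/
theorem isStrictOrdinaryAt_of_new (hp3 : 3 ≤ p) (h4 : 4 ∣ M) (hpM : ¬ p ∣ M)
    (hES : ∀ K [NeZero K], CongruenceProperty K p)
    (hG : ∀ P : ValuationSubring QBar, P.LiesOverPrime p → NoFlatHom P M p hpM)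
    {S : Finset ℕ} (hpS : p ∈ S) (hNS : ∀ l : ℕ, l.Prime → l ∣ p * M → l ∈ S)
    (ρ : GaloisRepAdic T) (habs : ρ.residual.IsAbsolutelyIrreducible)
    (hdet : ρ.DetIsCyclotomic p)
    (π : CuspForm.heckeAlgebra (p * M) 2 (↑S : Set ℕ) →+* T) (hfrob : FrobCharpoly ρ π)
    (hres : (GaloisRepAdic.ofResidualGaloisRep ρ.residual).IsOrdinaryAt p)
    (hnew : ∀ c : T, (∀ t : CuspForm.heckeAlgebra (p * M) 2 (↑S : Set ℕ),
      (∀ f : CuspForm (Gamma0 M) 2, t.1 (Newforms.levelIncl (dvd_mul_left M p) f) = 0) →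
        π t * c = 0) → c = 0) :
    ρ.IsStrictOrdinaryAt p := by
  have hord : ρ.IsOrdinaryAt p := by
    refine OrdinaryAtP.isOrdinaryAt_of_noHom (modelOfCongruence (hES (p * M))) ρ habs (by omega)
      hdet.1 π hfrob hres fun P hP => ?_
    have : CharP (Semistable.Res P) p := Arith.residueField_charP hP Fact.out
    have h := setup_of_four_dvd hP h4 hpM
    have := Semistable.isFunctionField_KM (A := P) h.hM
    exact (flatFamily h (hES (p * M)) (hG P hP)).levelNoHom
  refine EC.Rep.isStrictOrdinaryAt_of_lines ρ hdet fun P hP => ?_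
  obtain ⟨L, ⟨b, rfl⟩, hD, hI⟩ := hord P hP
  refine ⟨b, hI, fun σ hσ => ⟨hD σ hσ _ (Submodule.mem_span_singleton_self _),
    b.repr (ρ.ρ σ (b 1)) 1, ?_,
    exists_quotient_character b _ (hD σ hσ _ (Submodule.mem_span_singleton_self _))⟩⟩
  -- the quotient character
  let χ : ρ.V →ₗ[T] T := b.coord 1
  let z : GQ → T := fun g => χ (ρ.ρ g (b 1))
  have hχ0 : ∀ {w : ρ.V}, w ∈ T ∙ b 0 → χ w = 0 := fun hw => repr_one_eq_of_sub_mem b hw
  have hχ1 : χ (b 1) = 1 := (congrArg (fun e => e 1) (b.repr_self 1)).trans Finsupp.single_eq_same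
  have hzv : ∀ g ∈ P.decompositionSubgroup ℚ, ∀ v, χ (ρ.ρ g v) = z g * χ v := by
    intro g hg v
    have h := hχ0 (exists_quotient_character b _ (hD g hg _ (Submodule.mem_span_singleton_self _)) v)
    rw [χ.map_sub, χ.map_smul] at h
    exact sub_eq_zero.mp h
  obtain ⟨F, hF⟩ := Arith.exists_isFrobeniusAt hP Fact.out
  have hFD := hF.mem_decompositionSubgroup
  have hF2 : z F * z F = 1 := by
    refine sub_eq_zero.mp (hnew _ fun t ht => ?_)
    have h := hχ0 (mul_frobenius_sq_sub_mem hp3 h4 hpM hP hES (hG P hP) hpS hNS ρ habs hdet.1 π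
      hfrob hres hF t ht (T ∙ b 0) hI (b 1))
    rw [χ.map_smul, χ.map_sub, hzv F hFD, hzv F hFD, hχ1, mul_one, smul_eq_mul] at h
    exact h
  have hFi : ∀ (i : ℕ) (v : ρ.V), χ (ρ.ρ (F ^ i) v) = z F ^ i * χ v := by
    intro i
    induction i with
    | zero => intro v; rw [pow_zero, pow_zero, one_mul, map_one, Module.End.one_apply]
    | succ i ih =>
      intro v
      rw [pow_succ, map_mul, Module.End.mul_apply, ih, hzv F hFD, pow_succ, mul_assoc]
  show z σ * z σ = 1
  refine sub_eq_zero.mp ((Submodule.mem_bot T).mp ?_)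
  rw [← Ideal.iInf_pow_smul_eq_bot_of_isLocalRing (maximalIdeal T)
    (maximalIdeal.isMaximal T).ne_top (M := T), Submodule.mem_iInf]
  intro n
  rw [smul_eq_mul, Ideal.mul_top]
  obtain ⟨Ln, hLn, hcont⟩ := ρ.isAdicContinuous n
  obtain ⟨i, τ, hτ, hagree⟩ := exists_frobenius_mul_inertia_at hP Ln hF hσ
  have hfix := GaloisReps.inv_mul_fixes (fun x hx => (hagree x hx).symm)
  -- `χ` and `ρ g` respect `maximalIdeal T ^ n`
  have hzσ : z σ - z F ^ i ∈ maximalIdeal T ^ n := by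
    have h2 := hcont _ (fun x hx => hfix x hx) (b 1)
    have h3 : χ (ρ.ρ (F ^ i * τ) (ρ.ρ ((F ^ i * τ)⁻¹ * σ) (b 1) - b 1)) ∈ maximalIdeal T ^ n :=
      Submodule.smul_induction_on (p := fun y => χ (ρ.ρ (F ^ i * τ) y) ∈ maximalIdeal T ^ n) h2
        (fun a ha w _ => by
          rw [(ρ.ρ _).map_smul, χ.map_smul]
          exact Ideal.mul_mem_right _ _ ha)
        (fun y y' hy hy' => by rw [(ρ.ρ _).map_add, χ.map_add]; exact add_mem hy hy')
    have h4 : χ (ρ.ρ (F ^ i * τ) (b 1)) = z F ^ i := by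
      have h5 := hχ0 (hI τ hτ (b 1))
      rw [χ.map_sub, sub_eq_zero] at h5
      rw [map_mul, Module.End.mul_apply, hFi, h5, hχ1, mul_one]
    rw [(ρ.ρ _).map_sub, ← Module.End.mul_apply, ← map_mul, mul_inv_cancel_left, χ.map_sub,
      h4] at h3
    exact h3
  have h7 : z F ^ i * z F ^ i = 1 := by rw [← mul_pow, hF2, one_pow]
  have h8 := Ideal.mul_mem_left (maximalIdeal T ^ n) (z σ + z F ^ i) hzσ
  convert h8 using 1
  linear_combination (norm := ring1) h7

end Fermat.Agent.RT.Lift.AtP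

end
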