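import Fermat.Agent.RT.Lift.AtP.Transfer
import Fermat.Agent.OrdinaryAtP.Transfer

/-!
# Relations modulo the line of an ordinary representation

Let `F` be a family of inertia stable subgroups of the levels of the model which contains the moved
elements and has no subgroup killed by `p` with an invariant homomorphism to `ℤ/p`. If a mixed
combination `∑ xᵢ uᵢ` of Galois elements and Hecke operators maps every level into `F`, then
`∑ π'(uᵢ) ρ(xᵢ)` maps into the line of the ordinary representation.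
-/

set_option autoImplicit false

noncomputable section

open Module
open scoped MonoidAlgebra
open Fermat.Agent.GaloisReps Fermat.Agent.OrdinaryAtP

namespace Fermat.Agent.RT.Lift.AtP

variable {p : ℕ} [Fact p.Prime] {N : ℕ} [NeZero N] {S S' : Finset ℕ}

/-- The properties of flat subgroups of the levels of the model at a place over `p`. -/
structure FlatFamily (D : HeckeGaloisModel N p) (P : ValuationSubring (AlgebraicClosure ℚ)) where
  F : ∀ M : ℕ, AddSubgroup (ModelLevel D M)
  smul_mem : ∀ M, ∀ t ∈ P.inertiaSubgroupIn ℚ, ∀ x ∈ F M, t • x ∈ F M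
  moved_mem : ∀ M, ∀ t ∈ P.inertiaSubgroupIn ℚ, ∀ x : ModelLevel D M, t • x - x ∈ F M
  noHom : ∀ (M : ℕ) (H : AddSubgroup (ModelLevel D M)), H ≤ F M → (∀ x ∈ H, p • x = 0) →
    (∀ t ∈ P.inertiaSubgroupIn ℚ, ∀ x ∈ H, t • x ∈ H) →
    ∀ φ : H →+ ZMod p, (∀ t ∈ P.inertiaSubgroupIn ℚ, ∀ x y : H,
      (y : ModelLevel D M) = t • (x : ModelLevel D M) → φ y = φ x) → φ = 0

variable {D : HeckeGaloisModel N p} {P : ValuationSubring (AlgebraicClosure ℚ)}

theorem FlatFamily.levelNoHom (Φ : FlatFamily D P) : LevelNoHom D P := by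
  intro M H hst hle hp φ hφ
  refine Φ.noHom M H (hle.trans ((AddSubgroup.closure_le _).mpr ?_)) hp hst φ hφ
  rintro _ ⟨t, ht, x, rfl⟩
  exact Φ.moved_mem M t ht x

theorem levelEnd_galAlg_single (D : HeckeGaloisModel N p) (M : ℕ) (g : AbsGal)
    (x : ModelLevel D M) :
    levelEnd D M (galAlg D M (MonoidAlgebra.single g 1)) x = g • x := by
  rw [galAlg_single, one_smul, levelEnd_galLevel]

theorem levelEnd_natCast (D : HeckeGaloisModel N p) (M a : ℕ) (x : ModelLevel D M) :
    levelEnd D M (a : Matrix (Fin D.d) (Fin D.d) (ZMod (p ^ M))) x = a • x := by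
  rw [map_natCast, AddMonoid.End.natCast_apply]

theorem levelEnd_heckeLevel_smul (D : HeckeGaloisModel N p) (M : ℕ)
    (u : CuspForm.heckeAlgebra N 2 (↑S : Set ℕ)) (g : AbsGal) (x : ModelLevel D M) :
    levelEnd D M (heckeLevel D M u) (g • x) = g • levelEnd D M (heckeLevel D M u) x := by
  have := DFunLike.congr_fun (congrArg (levelEnd D M)
    (galLevel_mul_heckeLevel (S := S) D M g u)) x
  rw [map_mul, map_mul] at this
  exact this.symm

/-- A flat element in the part of the model belonging to the system is moved by `t₀` through the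
cyclotomic character. -/
theorem smul_eq_of_flat (Φ : FlatFamily D P) (M : ℕ) {t₀ : AbsGal}
    (ht₀ : t₀ ∈ P.inertiaSubgroupIn ℚ) {a : ℕ} (ha : (a : ZMod p) ≠ 1)
    (u : CuspForm.heckeAlgebra N 2 (↑S : Set ℕ))
    (hu : ∀ t ∈ P.inertiaSubgroupIn ℚ, galAlg D M (ordElem t₀ a t) * heckeLevel D M u = 0)
    (y : ModelLevel D M) (hy : levelEnd D M (heckeLevel D M u) y ∈ Φ.F M) :
    t₀ • levelEnd D M (heckeLevel D M u) y = a • levelEnd D M (heckeLevel D M u) y := by
  classical
  set E : AddMonoid.End (ModelLevel D M) := levelEnd D M (heckeLevel D M u)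
  have hann : ∀ t ∈ P.inertiaSubgroupIn ℚ, ∀ x,
      t₀ • (t • E x - E x) = a • (t • E x - E x) := by
    intro t ht x
    have h := DFunLike.congr_fun (congrArg (levelEnd D M) (hu t ht)) x
    rw [ordElem, map_mul (levelEnd D M), map_mul (galAlg D M), map_mul (levelEnd D M),
      map_sub (galAlg D M), map_sub (galAlg D M), map_sub (levelEnd D M), map_sub (levelEnd D M),
      map_one, map_natCast (galAlg D M), map_one (levelEnd D M), map_zero] at h
    change levelEnd D M (galAlg D M (MonoidAlgebra.single t₀ 1))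
        (levelEnd D M (galAlg D M (MonoidAlgebra.single t 1)) (E x) - E x) -
      levelEnd D M (a : Matrix _ _ _)
        (levelEnd D M (galAlg D M (MonoidAlgebra.single t 1)) (E x) - E x) = 0 at h
    rw [levelEnd_galAlg_single, levelEnd_galAlg_single, levelEnd_natCast, sub_eq_zero] at h
    exact h
  -- the group spanned by the moved elements of the part
  let Γ : AddSubgroup (ModelLevel D M) :=
    AddSubgroup.closure {z | ∃ t ∈ P.inertiaSubgroupIn ℚ, ∃ x, z = t • E x - E x}
  have hΓF : Γ ≤ Φ.F M := (AddSubgroup.closure_le _).mpr (by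
    rintro _ ⟨t, ht, x, rfl⟩
    exact Φ.moved_mem M t ht _)
  have hΓa : ∀ z ∈ Γ, t₀ • z = a • z := by
    intro z hz
    induction hz using AddSubgroup.closure_induction with
    | mem z hz => obtain ⟨t, ht, x, rfl⟩ := hz; exact hann t ht x
    | zero => rw [smul_zero, nsmul_zero]
    | add b c _ _ hb hc => rw [smul_add, nsmul_add, hb, hc]
    | neg b _ hb => rw [smul_neg, neg_nsmul, hb]
  have hΓI : ∀ g ∈ P.inertiaSubgroupIn ℚ, ∀ z ∈ Γ, g • z ∈ Γ := by
    intro g hg z hz
    induction hz using AddSubgroup.closure_induction with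
    | mem z hz =>
      obtain ⟨t, ht, x, rfl⟩ := hz
      refine AddSubgroup.subset_closure ⟨g * t * g⁻¹, mul_mem (mul_mem hg ht) (inv_mem hg), g • x,
        ?_⟩
      rw [levelEnd_heckeLevel_smul, smul_sub, ← mul_smul, ← mul_smul, inv_mul_cancel_right]
    | zero => rw [smul_zero]; exact zero_mem _
    | add b c _ _ hb hc => rw [smul_add]; exact add_mem hb hc
    | neg b _ hb => rw [smul_neg]; exact neg_mem hb
  set z := E y with hz
  set w := t₀ • z - a • z with hw
  suffices hw0 : w = 0 from sub_eq_zero.mp hw0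
  have hfix : t₀ • w = w := by
    have h := hann t₀ ht₀ y
    rw [← hz, smul_sub, nsmul_sub, ← sub_eq_zero] at h
    rw [hw, smul_sub, smul_comm t₀ a, ← sub_eq_zero, ← h]
    abel
  have hwY : ∃ x, E x = w := ⟨t₀ • y - a • y, by
    rw [map_sub, map_nsmul, levelEnd_heckeLevel_smul]⟩
  have hwF : w ∈ Φ.F M := sub_mem (Φ.smul_mem M t₀ ht₀ z hy) (nsmul_mem hy a)
  have hstep : ∀ v, (∃ x, E x = v) → v ∈ Φ.F M → t₀ • v = v → p • v = 0 → v = 0 := by
    rintro v ⟨x, rfl⟩ hvF hvfix hpv
    by_contra hv0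
    have hnot : ∀ k : ℤ, k • E x ∈ Γ → (p : ℤ) ∣ k := by
      intro k hk
      by_contra hdvd
      obtain ⟨b, c, hbc⟩ : ∃ b c : ℤ, b * k + c * p = 1 :=
        ((Nat.prime_iff_prime_int.mp (Fact.out : p.Prime)).coprime_iff_not_dvd.mpr hdvd).symm
      have hpz : (p : ℤ) • E x = 0 := by rw [natCast_zsmul]; exact hpv
      have hmem : E x ∈ Γ := by
        have := Γ.zsmul_mem hk b
        rwa [← mul_smul, show b * k = 1 - c * p by omega, sub_smul, one_smul, mul_smul, hpz,
          smul_zero, sub_zero] at this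
      have h1 := hΓa _ hmem
      rw [hvfix] at h1
      obtain ⟨b', c', hbc'⟩ : ∃ b c : ℤ, b * ((a : ℤ) - 1) + c * p = 1 :=
        ((Nat.prime_iff_prime_int.mp (Fact.out : p.Prime)).coprime_iff_not_dvd.mpr fun h => ha (by
            have h' := (ZMod.intCast_zmod_eq_zero_iff_dvd ((a : ℤ) - 1) p).mpr h
            push_cast at h'
            exact sub_eq_zero.mp h')).symm
      refine hv0 ?_
      rw [← one_smul ℤ (E x), ← hbc', add_smul, mul_smul, mul_smul, sub_smul, one_smul,
        natCast_zsmul, ← h1, sub_self, smul_zero, hpz, smul_zero, add_zero]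
    let H : AddSubgroup (ModelLevel D M) :=
      { carrier := {h | p • h = 0 ∧ ∃ k : ℤ, h - k • E x ∈ Γ}
        add_mem' := fun {h h'} hh hh' => ⟨by rw [nsmul_add, hh.1, hh'.1, add_zero], by
          obtain ⟨k, hk⟩ := hh.2
          obtain ⟨k', hk'⟩ := hh'.2
          exact ⟨k + k', by rw [add_smul, add_sub_add_comm]; exact add_mem hk hk'⟩⟩
        zero_mem' := ⟨nsmul_zero _, 0, by rw [zero_smul, sub_zero]; exact zero_mem _⟩
        neg_mem' := fun {h} hh => ⟨by rw [neg_nsmul, hh.1, neg_zero], by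
          obtain ⟨k, hk⟩ := hh.2
          exact ⟨-k, by rw [neg_smul, sub_neg_eq_add, neg_add_eq_sub, ← neg_sub]
                        exact neg_mem hk⟩⟩ }
    choose κ hκ using fun h : H => h.2.2
    have huniq : ∀ (h : H) (k : ℤ), (h : ModelLevel D M) - k • E x ∈ Γ →
        (κ h : ZMod p) = (k : ZMod p) := by
      intro h k hk
      rw [ZMod.intCast_eq_intCast_iff_dvd_sub]
      refine hnot _ ?_
      have := sub_mem (hκ h) hk
      rwa [sub_sub_sub_cancel_left, ← sub_smul] at this
    let φ : H →+ ZMod p := AddMonoidHom.mk' (fun h => (κ h : ZMod p)) fun h h' => by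
      rw [huniq (h + h') (κ h + κ h') (by
        rw [AddSubgroup.coe_add, add_smul, add_sub_add_comm]; exact add_mem (hκ h) (hκ h')),
        Int.cast_add]
    have hv' : E x ∈ H := ⟨hpv, 1, by rw [one_smul, sub_self]; exact zero_mem _⟩
    have hstab : ∀ t ∈ P.inertiaSubgroupIn ℚ, ∀ h ∈ H, ∀ k : ℤ,
        h - k • E x ∈ Γ → t • h - k • E x ∈ Γ := by
      intro t ht h _ k hk
      have h1 : t • h - k • E x = t • (h - k • E x) + k • (t • E x - E x) := by
        rw [smul_sub, smul_comm t k, zsmul_sub]; abel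
      rw [h1]
      exact add_mem (hΓI t ht _ hk)
        (Γ.zsmul_mem (AddSubgroup.subset_closure ⟨t, ht, x, rfl⟩) k)
    have hφ : φ = 0 := by
      refine Φ.noHom M H (fun h hh => ?_) (fun h hh => hh.1) (fun t ht h hh => ?_) φ
        (fun t ht h h' e => ?_)
      · obtain ⟨k, hk⟩ := hh.2
        have := add_mem (hΓF hk) ((Φ.F M).zsmul_mem hvF k)
        rwa [sub_add_cancel] at this
      · obtain ⟨k, hk⟩ := hh.2
        exact ⟨by rw [← smul_comm t p h, hh.1, smul_zero], k, hstab t ht h hh k hk⟩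
      · exact huniq h' (κ h) (by rw [e]; exact hstab t ht _ h.2 _ (hκ h))
    have h1 : φ ⟨E x, hv'⟩ = ((1 : ℤ) : ZMod p) := huniq ⟨E x, hv'⟩ 1
      (by rw [one_smul, sub_self]; exact zero_mem _)
    rw [hφ, AddMonoidHom.zero_apply, Int.cast_one] at h1
    exact zero_ne_one h1
  have hpow : ∀ i : ℕ, p ^ i • w = 0 → w = 0 := by
    intro i
    induction i with
    | zero => intro h; simpa using h
    | succ i ih =>
      intro h
      refine ih (hstep _ ?_ (nsmul_mem hwF _) (by rw [smul_comm, hfix]) ?_)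
      · obtain ⟨x, hx⟩ := hwY
        exact ⟨p ^ i • x, by rw [map_nsmul, hx]⟩
      · rw [← mul_nsmul, ← pow_succ, h]
  refine hpow M ?_
  funext i
  show (p ^ M) • (w : Fin D.d → ZMod (p ^ M)) i = 0
  rw [nsmul_eq_mul, ZMod.natCast_self, zero_mul]

variable {T : Type} [CommRing T] [IsLocalRing T] [IsNoetherianRing T]

set_option maxHeartbeats 800000 in
/-- A mixed combination mapping the levels into a flat family maps the representation into the
line of an ordinary filtration. -/
theorem sum_smul_mem_of_flat (Φ : FlatFamily D P) (hP : P.LiesOverPrime p) (ρ : GaloisRepAdic T)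
    (habs : ρ.residual.IsAbsolutelyIrreducible) (hp2 : p ≠ 2)
    (hpT : (p : T) ∈ IsLocalRing.maximalIdeal T)
    (π : CuspForm.heckeAlgebra N 2 (↑S : Set ℕ) →+* T) (hfrob : FrobCharpoly ρ π)
    (hres : (GaloisRepAdic.ofResidualGaloisRep ρ.residual).IsOrdinaryAt p)
    (hS : (↑S' : Set ℕ) ⊆ ↑S) (π' : CuspForm.heckeAlgebra N 2 (↑S' : Set ℕ) →+* T)
    (hπ : ∀ t, π' (heckeIncl hS t) = π t)
    {r : ℕ} (x : Fin r → ℤ[AbsGal]) (u : Fin r → CuspForm.heckeAlgebra N 2 (↑S' : Set ℕ))
    (hflat : ∀ (M : ℕ) (y : ModelLevel D M),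
      levelEnd D M (∑ i, galAlg D M (x i) * heckeLevel D M (u i)) y ∈ Φ.F M)
    (L : Submodule T ρ.V) (hL : ∀ t ∈ P.inertiaSubgroupIn ℚ, ∀ v, ρ.ρ t v - v ∈ L) (v : ρ.V) :
    ∑ i, π' (u i) • repAlg ρ (x i) v ∈ L := by
  classical
  set m := IsLocalRing.maximalIdeal T
  obtain ⟨c, hc⟩ := IsCyclic.exists_generator (α := (ZMod p)ˣ)
  obtain ⟨t₀, ht₀, rfl⟩ := EC.Rep.exists_mem_inertia_cyclotomicHom_eq hP c
  have hgen : ∀ g, ∃ i : ℕ, EC.Rep.cyclotomicHom p g = EC.Rep.cyclotomicHom p t₀ ^ i := fun g => by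
    obtain ⟨i, hi⟩ := Submonoid.mem_powers_iff _ _ |>.mp
      (mem_powers_iff_mem_zpowers.mpr (hc (EC.Rep.cyclotomicHom p g)))
    exact ⟨i, hi.symm⟩
  have hne : EC.Rep.cyclotomicHom p t₀ ≠ 1 := fun h => by
    obtain ⟨i, hi⟩ := Subgroup.mem_zpowers_iff.mp (hc (-1))
    rw [h, one_zpow] at hi
    have : Fact (2 < p) := ⟨lt_of_le_of_ne (Fact.out : p.Prime).two_le hp2.symm⟩
    exact ZMod.neg_one_ne_one (congrArg Units.val hi).symm
  have hord : ∀ t ∈ P.inertiaSubgroupIn ℚ,
      LinearMap.trace T ρ.V (ρ.ρ t) - LinearMap.det (ρ.ρ t) - 1 ∈ m :=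
    fun t ht => trace_sub_det_sub_one_mem ρ hres hP ht
  obtain ⟨M₁, hann⟩ :=
    exists_annihilator D ρ habs hp2 hpT π hfrob P hord Φ.levelNoHom ht₀ hgen hne
  obtain ⟨k, hdet⟩ := exists_det_congr D ρ hp2 hpT π hfrob
  choose M₀ hM₀ using relations_transfer_sum D ρ habs hpT π hfrob hS π' hπ
  set d := LinearMap.det (ρ.ρ t₀)
  set w := ∑ i, π' (u i) • repAlg ρ (x i) v with hwdef
  have hlevel : ∀ n, ∃ a : ℕ, d - (a : T) ∈ m ^ n ∧ (0 < n → (a : ZMod p) ≠ 1) ∧
      ρ.ρ t₀ w - (a : T) • w ∈ m ^ n • (⊤ : Submodule T ρ.V) := by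
    intro n
    set M := max (max M₁ (M₀ n)) (n + k + 1)
    have : NeZero (p ^ M) := ⟨pow_ne_zero _ (Fact.out : p.Prime).ne_zero⟩
    obtain ⟨ζ, hζ⟩ := exists_primitiveRoot (p ^ M)
    have hza := (hζ.autToPow_spec ℚ t₀).symm
    set a := (hζ.autToPow ℚ t₀ : ZMod (p ^ M)).val
    have hane : (a : ZMod p) ≠ 1 := fun h => hne (Units.ext (by
      rw [cyclotomicHom_eq_natCast (by omega) hζ hza, h, Units.val_one]))
    refine ⟨a, hdet n M ζ t₀ a (by omega) hζ hza, fun _ => hane, ?_⟩
    -- the unit of the annihilator does not depend on the inertia element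
    choose ut hut hut0 using fun t : P.inertiaSubgroupIn ℚ =>
      hann M ζ a (by omega) hζ hza t t.2
    obtain ⟨u₀, hu₀, hu₀ann⟩ : ∃ u₀, IsUnit (π u₀) ∧ ∀ t ∈ P.inertiaSubgroupIn ℚ,
        galAlg D M (ordElem t₀ a t) * heckeLevel D M u₀ = 0 := by
      have : Finite (heckeLevel (S := S) D M).range := inferInstance
      let R : Set (Matrix (Fin D.d) (Fin D.d) (ZMod (p ^ M))) :=
        Set.range fun t => heckeLevel D M (ut t)
      have : Fintype R := Fintype.ofFinite R
      choose pre hpre using fun r : R => r.2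
      refine ⟨∏ r : R, ut (pre r), ?_, fun t ht => ?_⟩
      · rw [map_prod]; exact IsUnit.prod_iff.mpr fun r _ => hut _
      · obtain ⟨r, hr⟩ : ∃ r : R, (r : Matrix _ _ _) = heckeLevel D M (ut ⟨t, ht⟩) :=
          ⟨⟨_, ⟨t, ht⟩, rfl⟩, rfl⟩
        have hr' : heckeLevel D M (ut (pre r)) = heckeLevel D M (ut ⟨t, ht⟩) :=
          (hpre r).trans hr
        have h0 : galAlg D M (ordElem t₀ a t) * heckeLevel D M (ut ⟨t, ht⟩) = 0 := hut0 ⟨t, ht⟩
        rw [← Finset.mul_prod_erase _ _ (Finset.mem_univ r), map_mul, ← mul_assoc, hr', h0,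
          zero_mul]
    have hrel : ∑ i, galAlg D M ((MonoidAlgebra.single t₀ 1 - (a : ℤ[AbsGal])) * x i) *
        heckeLevel D M (u i * heckeIncl hS u₀) = 0 := by
      refine levelEnd_injective D M (AddMonoidHom.ext fun y => ?_)
      set A := ∑ i, galAlg D M (x i) * heckeLevel D M (u i) with hA
      have hcomm : A * heckeLevel D M u₀ = heckeLevel D M u₀ * A := by
        rw [hA, Finset.sum_mul, Finset.mul_sum]
        refine Finset.sum_congr rfl fun i _ => ?_
        rw [← heckeLevel_heckeIncl hS, ← mul_assoc, mul_assoc (galAlg D M (x i)), ← map_mul,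
          mul_comm (u i), map_mul, ← mul_assoc]
        congr 1
        induction x i using MonoidAlgebra.induction_linear with
        | zero => simp
        | add b c hb hc => rw [map_add, add_mul, mul_add, hb, hc]
        | single g b =>
          rw [galAlg_single, smul_mul_assoc, mul_smul_comm, galLevel_mul_heckeLevel]
      have h1 : (∑ i, galAlg D M ((MonoidAlgebra.single t₀ 1 - (a : ℤ[AbsGal])) * x i) *
          heckeLevel D M (u i * heckeIncl hS u₀)) =
          galAlg D M (MonoidAlgebra.single t₀ 1 - (a : ℤ[AbsGal])) *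
            (heckeLevel D M u₀ * A) := by
        rw [← hcomm, hA, Finset.sum_mul, Finset.mul_sum]
        refine Finset.sum_congr rfl fun i _ => ?_
        rw [map_mul (galAlg D M), map_mul (heckeLevel D M), heckeLevel_heckeIncl, mul_assoc,
          mul_assoc]
      have hy : levelEnd D M (heckeLevel D M u₀) (levelEnd D M A y) ∈ Φ.F M := by
        have := hflat M (levelEnd D M (heckeLevel D M u₀) y)
        rw [← hA] at this
        show (levelEnd D M (heckeLevel D M u₀) * levelEnd D M A) y ∈ _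
        rw [← map_mul, ← hcomm, map_mul]
        exact this
      have h2 := smul_eq_of_flat Φ M ht₀ hane u₀ hu₀ann _ hy
      rw [h1, map_mul (levelEnd D M), map_sub (galAlg D M), map_natCast (galAlg D M),
        map_sub (levelEnd D M), map_mul (levelEnd D M), map_zero]
      show levelEnd D M (galAlg D M (MonoidAlgebra.single t₀ 1))
          (levelEnd D M (heckeLevel D M u₀) (levelEnd D M A y)) -
        levelEnd D M (a : Matrix _ _ _)
          (levelEnd D M (heckeLevel D M u₀) (levelEnd D M A y)) = 0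
      rw [levelEnd_galAlg_single, levelEnd_natCast, h2, sub_self]
    have h := hM₀ n M (by omega) r _ _ hrel v
    obtain ⟨e, he⟩ := hu₀
    have h3 := (m ^ n • (⊤ : Submodule T ρ.V)).smul_mem (↑e⁻¹ : T) h
    rw [Finset.smul_sum] at h3
    convert h3 using 1
    rw [hwdef, map_sum, Finset.smul_sum, ← Finset.sum_sub_distrib]
    refine Finset.sum_congr rfl fun i _ => ?_
    rw [map_mul π', hπ, ← he, mul_comm (π' (u i)) (e : T), smul_smul (↑e⁻¹ : T), ← mul_assoc,
      Units.inv_mul, one_mul, map_mul (repAlg ρ), map_sub, repAlg_single, one_smul, map_natCast,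
      Module.End.mul_apply, LinearMap.sub_apply, Module.End.natCast_apply, smul_sub, map_smul,
      ← Nat.cast_smul_eq_nsmul T, smul_smul, smul_smul, mul_comm (π' (u i)) (a : T)]
  have hd : ρ.ρ t₀ w = d • w := by
    refine sub_eq_zero.mp ((Submodule.mem_bot T).mp ?_)
    rw [← Ideal.iInf_pow_smul_eq_bot_of_isLocalRing m
      (IsLocalRing.maximalIdeal.isMaximal T).ne_top (M := ρ.V), Submodule.mem_iInf]
    intro n
    obtain ⟨a, ha, -, h⟩ := hlevel n
    have h2 := Submodule.add_mem _ h (Submodule.smul_mem_smul (Ideal.neg_mem_iff _ |>.mpr ha)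
      (Submodule.mem_top (x := w)))
    convert h2 using 1
    rw [neg_smul, sub_smul]
    abel
  have hd1 : IsUnit (d - 1) := by
    by_contra h
    have h1 := (IsLocalRing.mem_maximalIdeal _).mpr h
    obtain ⟨a, ha, hane, -⟩ := hlevel 1
    rw [pow_one] at ha
    refine hane one_pos (natCast_zmod_eq_one hpT ?_)
    have := m.sub_mem h1 ha
    rwa [sub_sub_sub_cancel_left] at this
  obtain ⟨e, he⟩ := hd1
  have hmem := L.smul_mem (↑e⁻¹ : T) (hL t₀ ht₀ w)
  rwa [hd, show d • w - w = (d - 1) • w by rw [sub_smul, one_smul], ← he, smul_smul,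
    Units.inv_mul, one_smul] at hmem

end Fermat.Agent.RT.Lift.AtP

end
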