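import Fermat.Agent.GaloisReps.Results
import Fermat.Agent.GaloisReps.Flat
import Fermat.Agent.OrdinaryAtP.Levels
import Fermat.Agent.Carayol.Degeneracy

/-!
# The levels of the model as torsion classes
-/

set_option autoImplicit false

noncomputable section

open AlgebraicCurve ModularCurve
open Fermat.Agent.GaloisReps Fermat.Agent.OrdinaryAtP
open Fermat.Agent.Carayol (actTors psi_actTors)

namespace Fermat.Agent.RT.Lift.AtP

variable {N p : ℕ} [NeZero N] [Fact p.Prime] (hES : CongruenceProperty N p)

/-- The torsion class of a vector of the model. -/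
def torsVec (n : ℕ) (y : ModelLevel (modelOfCongruence hES) n) : JTors N p n :=
  ((torsionIso N p (conjProperty N)).psi n).symm y

/-- The class of a vector of the model, as an additive map. -/
def modelClass (n : ℕ) : ModelLevel (modelOfCongruence hES) n →+ JZero N :=
  (JTors N p n).subtype.comp ((torsionIso N p (conjProperty N)).psi n).symm.toAddMonoidHom

theorem modelClass_injective (n : ℕ) : Function.Injective (modelClass hES n) :=
  Subtype.val_injective.comp ((torsionIso N p (conjProperty N)).psi n).symm.injective

theorem pow_nsmul_modelClass (n : ℕ) (y : ModelLevel (modelOfCongruence hES) n) :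
    p ^ n • modelClass hES n y = 0 := by
  have h := (torsVec hES n y).2
  rw [Pic0.mem_torsion, natCast_zsmul] at h
  exact h

theorem modelClass_smul (n : ℕ) (σ : AbsGal) (y : ModelLevel (modelOfCongruence hES) n) :
    modelClass hES n (σ • y) = σ • modelClass hES n y := by
  set E := torsionIso N p (conjProperty N)
  refine congrArg Subtype.val ((AddEquiv.symm_apply_eq _).mpr (Eq.trans ?_
    (E.galLvl_mulVec n σ ((E.psi n).symm y))))
  refine Eq.trans (congrArg (fun A => Matrix.mulVec A
    (y : Fin (modelOfCongruence hES).d → ZMod (p ^ n))) (E.map_gal n σ)) ?_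
  exact congrArg _ ((E.psi n).apply_symm_apply y).symm

theorem modelClass_hecke {S : Finset ℕ} (n : ℕ) (u : CuspForm.heckeAlgebra N 2 (↑S : Set ℕ))
    (y : ModelLevel (modelOfCongruence hES) n) :
    modelClass hES n (levelEnd (modelOfCongruence hES) n
        (heckeLevel (modelOfCongruence hES) n u) y) =
      (actTors (torsionIso N p (conjProperty N)) n (toFull (↑S : Set ℕ) u) (torsVec hES n y) :
        JZero N) := by
  set E := torsionIso N p (conjProperty N)
  refine congrArg Subtype.val ((AddEquiv.symm_apply_eq _).mpr ?_)
  rw [psi_actTors]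
  refine Eq.trans (congrArg (fun A => Matrix.mulVec A
    (y : Fin (modelOfCongruence hES).d → ZMod (p ^ n)))
    (map_intCast_toZModPow n (latticeMat N (toFull (↑S : Set ℕ) u)))) ?_
  exact congrArg _ ((E.psi n).apply_symm_apply y).symm

end Fermat.Agent.RT.Lift.AtP

end
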