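import Fermat.Agent.RT.Lift.AtP.Flat
import Fermat.Agent.RT.Lift.AtP.Model

/-!
# The square of Frobenius on classes killed by both push forwards to the lower level

A Hecke operator killing level `M` maps every class of level `p M` to a class killed by both push
forwards, so both norms of a Kummer function are powers and `σ² - 1` gives flat classes.
-/

set_option autoImplicit false
set_option synthInstance.maxHeartbeats 400000
set_option maxHeartbeats 1000000
set_option linter.unusedSectionVars false

noncomputable section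

namespace Fermat.Agent.RT.Lift.AtP

open AlgebraicCurve ModularCurve CongruenceSubgroup
open Fermat.Agent.Semistable Fermat.Agent.RT.MazurP
open Fermat.Agent.GaloisReps
open Fermat.Agent.OrdinaryAtP (levelEnd)
open Arith (QBar GQ)
open NewformLocal.Toric (normUp)

/-! ### Push forward of classes -/

section Push

variable {R N : ℕ} [NeZero R] [NeZero N] (φ : FB R →ₐ[QBar] FB N)

/-- The push forward on classes. -/
def pushClass : JZero N →+ JZero R :=
  QuotientAddGroup.map _ _
    (((Divisor.pushforwardAlong φ (FF.isIntegralAlong φ)).domRestrict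
      (Divisor.degZero (K := QBar) (F := FB N))).codRestrict
        (Divisor.degZero (K := QBar) (F := FB R))
        fun D => Divisor.pushforwardAlong_mem_degZero φ (FF.isIntegralAlong φ) D.2)
    (by
      rintro ⟨D, hD0⟩ hD
      simp only [AddSubgroup.mem_addSubgroupOf] at hD ⊢
      exact Divisor.isPrincipal_pushforwardAlong φ (FF.isIntegralAlong φ) (FF.finiteAlong φ)
        (FF.normFormulaAlong φ _) hD)

theorem pushClass_smul
    (hφ : ∀ (σ : GQ) (x : FB R), φ (galF R σ x) = galF N σ (φ x)) (σ : GQ) (x : JZero N) :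
    pushClass φ (σ • x) = σ • pushClass φ x := by
  obtain ⟨D, rfl⟩ := Pic0.mk_surjective x
  refine congrArg Pic0.mk (Subtype.ext ?_)
  exact GaloisReps.pushforwardAlong_smul (arithmeticGalois (modularFunctionFieldFull R) σ)
    (arithmeticGalois (modularFunctionFieldFull N) σ) φ (FF.isIntegralAlong φ) (hφ σ) _

/-- The norm along `φ`. -/
def normAlong : FB N →* FB R :=
  letI := algebraAlong φ
  Algebra.norm (FB R)

theorem normAlong_ne_zero {f : FB N} (hf : f ≠ 0) : normAlong φ f ≠ 0 :=
  ((isUnit_iff_ne_zero.mpr hf).map (normAlong φ)).ne_zero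

/-- The push forward of a class is the class of the norm. -/
theorem pushClass_cls {m : ℕ} [NeZero m] {f : FB N} (hf : f ≠ 0)
    (hd : ∀ v : Place QBar (FB N), (m : ℤ) ∣ v.ord f) :
    ∃ hd' : ∀ v : Place QBar (FB R), (m : ℤ) ∣ v.ord (normAlong φ f),
      pushClass φ (cls m hf hd) = cls m (normAlong_ne_zero φ hf) hd' := by
  set u : JacTorsion.divGrp QBar (FB N) m := ⟨Units.mk0 f hf, hd⟩
  set D := JacTorsion.divQuot u
  have hi := FF.isIntegralAlong φ
  have key : ∀ v : Place QBar (FB R),
      v.ord (normAlong φ f) = (m : ℤ) * Divisor.pushforwardAlong φ hi D v := by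
    intro v
    have h : Divisor.pushforwardAlong φ hi (FF.div QBar f) v = v.ord (normAlong φ f) :=
      (FF.normFormulaAlong φ (FF.finiteAlong φ)) f hf (FF.div QBar f)
        (fun w => JacTorsion.div_apply f w) v
    have e : Divisor.pushforwardAlong φ hi (FF.div QBar f) =
        (m : ℤ) • Divisor.pushforwardAlong φ hi D := by
      rw [← map_zsmul]
      exact congrArg _ (JacTorsion.smul_divQuot u).symm
    rw [e, Finsupp.smul_apply, smul_eq_mul] at h
    exact h.symm
  refine ⟨fun v => by rw [key]; exact dvd_mul_right _ _, ?_⟩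
  exact (cls_eq_mk (normAlong_ne_zero φ hf) _
    ⟨_, Divisor.pushforwardAlong_mem_degZero φ hi (JacTorsion.divQuot_mem_degZero u)⟩ key).symm

/-- The push forward on torsion. -/
def pushClassTors (p n : ℕ) : JTors N p n →+ JTors R p n :=
  ((pushClass φ).domRestrict (JTors N p n)).codRestrict (JTors R p n) fun x =>
    Pic0.mem_torsion.2 (((map_zsmul (pushClass φ) _ _).symm.trans
      (congrArg (pushClass φ) (Pic0.mem_torsion.1 x.2))).trans (map_zero _))

end Push

/-! ### Semilinear automorphisms on classes -/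

/-- An automorphism acts on classes through the functions. -/
theorem smul_cls_aut {N m : ℕ} [NeZero N] [NeZero m] (g : SemilinearAut QBar (FB N)) {f : FB N}
    (hf : f ≠ 0) (hd : ∀ v : Place QBar (FB N), (m : ℤ) ∣ v.ord f) :
    ∃ (hf' : g • f ≠ 0) (hd' : ∀ v : Place QBar (FB N), (m : ℤ) ∣ v.ord (g • f)),
      g • cls m hf hd = cls m hf' hd' := by
  have hord : ∀ v : Place QBar (FB N), v.ord (g • f) = (g⁻¹ • v).ord f := fun v => by
    have h := SemilinearAut.ord_smul g (g⁻¹ • v) f
    rwa [smul_inv_smul] at h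
  have hf' : g • f ≠ 0 := fun h0 => hf ((smul_eq_zero_iff_eq g).mp h0)
  set u : JacTorsion.divGrp QBar (FB N) m := ⟨Units.mk0 f hf, hd⟩
  set d : Divisor.degZero (K := QBar) (F := FB N) :=
    ⟨JacTorsion.divQuot u, JacTorsion.divQuot_mem_degZero u⟩
  refine ⟨hf', fun v => by rw [hord]; exact hd _, ?_⟩
  rw [cls_eq_mk hf' _ (SemilinearAut.degZeroSMulHom g d) (fun v => by
    rw [hord, SemilinearAut.coe_degZeroSMulHom, SemilinearAut.divisor_smul_apply,
      ← JacTorsion.div_apply, show FF.div QBar f = (m : ℤ) • JacTorsion.divQuot u from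
        (JacTorsion.smul_divQuot u).symm, Finsupp.smul_apply, smul_eq_mul])]
  rfl

/-! ### The flat classes -/

variable {A : ValuationSubring QBar} {M p : ℕ} [NeZero M] [hp : Fact p.Prime] [CharP (Res A) p]
  [FF.IsFunctionField (Res A) (KM A M)]

/-- If both norms of a Kummer function are powers, `σ² x - x` is flat. -/
theorem isFlat_frobenius_sq (h : Setup A M p) {σ : GQ} (hσ : A.IsFrobeniusAt σ p) {m : ℕ}
    [NeZero m] {f : FB (p * M)} (hf : f ≠ 0)
    (hd : ∀ v : Place QBar (FB (p * M)), (m : ℤ) ∣ v.ord f)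
    (hn₀ : ∃ g : FB M, g ≠ 0 ∧ normUp p M f = g ^ m)
    (hn₁ : ∃ g : FB M, g ≠ 0 ∧ normUp p M (wEquiv p M h.hqM f) = g ^ m) :
    IsFlat A M p h.hqM m (σ • σ • cls m hf hd - cls m hf hd) := by
  set u' : JacTorsion.divGrp QBar (FB (p * M)) m := ⟨Units.mk0 f hf, hd⟩
  set D := JacTorsion.divQuot u'
  set d : Divisor.degZero (K := QBar) (F := FB (p * M)) :=
    ⟨D, JacTorsion.divQuot_mem_degZero u'⟩
  have hord : ∀ v : Place QBar (FB (p * M)), v.ord f = (m : ℤ) * D v := fun v => by
    rw [← JacTorsion.div_apply, ← smul_eq_mul (m : ℤ), ← Finsupp.smul_apply,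
      JacTorsion.smul_divQuot u']
    rfl
  obtain ⟨u, hu, a, ha, F, hF, hFr⟩ :=
    NewformLocal.Toric.exists_hasKummer_frobenius_sq h hσ hf hord hn₀ hn₁
  have hF0 : (F : FB (p * M)) ≠ 0 := fun h0 => ha 0 (by
    have := hFr 0
    rw [show F = 0 from Subtype.ext h0, map_zero] at this
    exact (map_eq_zero _).mp this.symm)
  have hFd : ∀ v : Place QBar (FB (p * M)), (m : ℤ) ∣ v.ord (F : FB (p * M)) := fun v => by
    rw [hF v]; exact dvd_mul_right _ _
  set g := arithmeticGalois (modularFunctionFieldFull (p * M)) σ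
  have hdu : FF.div QBar u ∈ Divisor.degZero (K := QBar) (F := FB (p * M)) :=
    FF.degree_div u
  set e : Divisor.degZero (K := QBar) (F := FB (p * M)) :=
    SemilinearAut.degZeroSMulHom g (SemilinearAut.degZeroSMulHom g d) - d with he
  have hdu0 : Pic0.mk (⟨FF.div QBar u, hdu⟩ : Divisor.degZero (K := QBar) (F := FB (p * M))) = 0 :=
    (QuotientAddGroup.eq_zero_iff _).mpr
      (AddSubgroup.mem_addSubgroupOf.mpr ⟨u, hu, fun v => JacTorsion.div_apply _ _⟩)
  have hx : σ • σ • cls m hf hd - cls m hf hd = cls m hF0 hFd := by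
    rw [cls_eq_mk hF0 hFd
      (e - (⟨FF.div QBar u, hdu⟩ : Divisor.degZero (K := QBar) (F := FB (p * M)))) hF]
    rw [show Pic0.mk (e - (⟨FF.div QBar u, hdu⟩ :
        Divisor.degZero (K := QBar) (F := FB (p * M)))) =
      Pic0.mk e - Pic0.mk (⟨FF.div QBar u, hdu⟩ :
        Divisor.degZero (K := QBar) (F := FB (p * M))) from rfl, hdu0, sub_zero]
    rfl
  rw [hx]
  exact isFlat_of_const h.hqM h.hM hF0 hFd F.2 a ha hFr

/-- A Hecke operator killing level `M` gives classes whose Kummer functions have power norms. -/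
theorem exists_norms_of_killsOld (hpM : ¬ p ∣ M) (hES : ∀ K [NeZero K], CongruenceProperty K p)
    (S : Finset ℕ) (hpS : p ∈ S) (hNS : ∀ l : ℕ, l.Prime → l ∣ p * M → l ∈ S)
    (t : CuspForm.heckeAlgebra (p * M) 2 (↑S : Set ℕ))
    (ht : ∀ f : CuspForm (Gamma0 M) 2, t.1 (Newforms.levelIncl (dvd_mul_left M p) f) = 0)
    (n : ℕ) [NeZero (p ^ n)] (y : ModelLevel (modelOfCongruence (hES (p * M))) n) :
    ∃ (f : FB (p * M)) (hf : f ≠ 0)
      (hd : ∀ v : Place QBar (FB (p * M)), ((p ^ n : ℕ) : ℤ) ∣ v.ord f),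
      cls (p ^ n) hf hd = modelClass (hES (p * M)) n
        (levelEnd (modelOfCongruence (hES (p * M))) n
          (heckeLevel (modelOfCongruence (hES (p * M))) n t) y) ∧
      (∃ g : FB M, g ≠ 0 ∧ normUp p M f = g ^ p ^ n) ∧
      ∃ g : FB M, g ≠ 0 ∧ normUp p M (wEquiv p M hpM f) = g ^ p ^ n := by
  set E := torsionIso (p * M) p (conjProperty _)
  set G := torsionGalois (p * M) p (hES _)
  set E' := torsionIso M p (conjProperty _)
  obtain ⟨t', ht', hint⟩ := Carayol.exists_intertwine E G E' (torsionGalois M p (hES _))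
    (dvd_mul_left M p) S hpS hNS t
  have ht0 : t' = 0 := Subtype.ext (LinearMap.ext fun f =>
    Newforms.levelRaise_injective (M := M) (d := 1) (by rw [one_mul]; exact dvd_mul_left M p)
      (((ht' f).symm.trans (ht f)).trans (map_zero _).symm))
  set z := Carayol.actTors E n (toFull (↑S : Set ℕ) t) (torsVec (hES (p * M)) n y) with hz
  have key : ∀ π : JTors (p * M) p n →+ JTors M p n,
      (∀ σ w, π (galTors n σ w) = galTors n σ (π w)) → π z = 0 := by
    intro π hπ
    refine (hint n π hπ _).trans ?_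
    rw [ht0]
    refine (E'.psi n).injective ?_
    rw [Carayol.psi_actTors, map_zero, map_zero, Matrix.zero_mulVec, map_zero]
  obtain ⟨f₀, hf₀⟩ := JacTorsion.toTorsion_surjective z
  set f : FB (p * M) := ((f₀.toMul : (FB (p * M))ˣ) : FB (p * M))
  have hf : f ≠ 0 := Units.ne_zero _
  have hd : ∀ v : Place QBar (FB (p * M)), ((p ^ n : ℕ) : ℤ) ∣ v.ord f := f₀.toMul.2
  have hcls : cls (p ^ n) hf hd = (z : JZero (p * M)) := by
    rw [← hf₀]
    exact congrArg (fun w => ((JacTorsion.toTorsion (Additive.ofMul w) :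
      Pic0.torsion QBar (FB (p * M)) (p ^ n)) : JZero (p * M))) (Subtype.ext (Units.ext rfl))
  refine ⟨f, hf, hd, hcls.trans (modelClass_hecke (hES (p * M)) n t y).symm, ?_, ?_⟩
  · obtain ⟨hd', e⟩ := pushClass_cls (upF M p) hf hd
    have h0 := congrArg Subtype.val (key (pushClassTors (upF M p) p n) fun σ w => Subtype.ext
      (pushClass_smul (upF M p) (fun τ x => (galF_upF M p τ x).symm) σ _))
    change pushClass (upF M p) (z : JZero (p * M)) = 0 at h0
    rw [← hcls, e] at h0
    exact (cls_eq_zero_iff _ hd').mp h0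
  · set w := SemilinearAut.ofAlgAut (wEquiv p M hpM) with hw
    obtain ⟨hf', hd1, e1⟩ := smul_cls_aut w hf hd
    obtain ⟨hd', e⟩ := pushClass_cls (upF M p) hf' hd1
    let wTors : JTors (p * M) p n →+ JTors (p * M) p n :=
      { toFun := fun x => ⟨w • (x : JZero (p * M)), SemilinearAut.smul_mem_torsion w x.2⟩
        map_zero' := Subtype.ext (smul_zero w)
        map_add' := fun x x' => Subtype.ext (smul_add w (x : JZero (p * M)) (x' : JZero (p * M))) }
    have hwσ : ∀ σ : GQ, w * arithmeticGalois (modularFunctionFieldFull (p * M)) σ =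
        arithmeticGalois (modularFunctionFieldFull (p * M)) σ * w := fun σ =>
      Subtype.ext (Prod.ext (RingEquiv.ext fun x => wEquiv_galois p M hpM σ x) rfl)
    have h0 := congrArg Subtype.val (key ((pushClassTors (upF M p) p n).comp wTors)
      fun σ x => Subtype.ext (by
        show pushClass (upF M p) (w • σ • (x : JZero (p * M))) =
          σ • pushClass (upF M p) (w • (x : JZero (p * M)))
        rw [← pushClass_smul (upF M p) (fun τ x => (galF_upF M p τ x).symm), galois_smul_pic0_def,
          galois_smul_pic0_def, ← mul_smul, hwσ, mul_smul]))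
    change pushClass (upF M p) (w • (z : JZero (p * M))) = 0 at h0
    rw [← hcls, e1, e] at h0
    exact (cls_eq_zero_iff _ hd').mp h0

end Fermat.Agent.RT.Lift.AtP

end
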