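import Fermat.Agent.RT.Lift.AtP.Deduce
import Fermat.Agent.RT.Lift.AtP.New

/-!
# The flat family on the model of level `p M` and the square of Frobenius on the new part
-/

set_option autoImplicit false
set_option synthInstance.maxHeartbeats 400000
set_option maxHeartbeats 1000000
set_option linter.unusedSectionVars false

noncomputable section

namespace Fermat.Agent.RT.Lift.AtP

open AlgebraicCurve ModularCurve CongruenceSubgroup
open Fermat.Agent.Semistable Fermat.Agent.RT.MazurP
open Fermat.Agent.GaloisReps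
open Fermat.Agent.OrdinaryAtP (IsFlatClass levelEnd)
open Arith (QBar GQ)
open scoped MonoidAlgebra

variable {A : ValuationSubring QBar} {M p : ℕ} [NeZero M] [hp : Fact p.Prime]

variable (A M p) in
/-- An inertia stable group of flat `p`-torsion classes has no invariant map to `ℤ/p`. -/
def NoFlatHom (hpM : ¬ p ∣ M) : Prop :=
  ∀ H : AddSubgroup (JZero (p * M)), (∀ y ∈ H, IsFlatClass A M p hpM y) →
    ∀ hstab : ∀ τ ∈ A.inertiaSubgroupIn ℚ, ∀ y ∈ H, τ • y ∈ H,
      ∀ π : H →+ ZMod p,
        (∀ τ (hτ : τ ∈ A.inertiaSubgroupIn ℚ) (y : H),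
          π ⟨τ • (y : JZero (p * M)), hstab τ hτ y y.2⟩ = π y) → π = 0

/-- The good reduction data at a level divisible by `4`. -/
theorem setup_of_four_dvd (hA : A.LiesOverPrime p) (h4 : 4 ∣ M) (hpM : ¬ p ∣ M) :
    Setup A M p := by
  have : CharP (Res A) p := Arith.residueField_charP hA hp.out
  have hM : (M : Res A) ≠ 0 := by rwa [Ne, CharP.cast_eq_zero_iff (Res A) p]
  exact ⟨hA, hpM, hM, goodM_of_dvd (Or.inl rfl) h4 hM⟩

variable [CharP (Res A) p] [FF.IsFunctionField (Res A) (KM A M)]

/-- The flat family pulled back along equivariant injective maps of the levels into the classes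
of level `p M`. -/
def flatFamilyOf (h : Setup A M p) (hG : NoFlatHom A M p h.hqM) {N : ℕ} [NeZero N]
    (D : HeckeGaloisModel N p) (i : ∀ n, ModelLevel D n →+ JZero (p * M))
    (hinj : ∀ n, Function.Injective (i n))
    (hsmul : ∀ n (σ : GQ) (x : ModelLevel D n), i n (σ • x) = σ • i n x)
    (htors : ∀ n x, p ^ n • i n x = 0) : FlatFamily D A where
  F n :=
    have : NeZero (p ^ n) := ⟨pow_ne_zero n hp.out.ne_zero⟩
    (flatGroup A M p h.hqM (p ^ n)).comap (i n)
  smul_mem n t ht x hx := by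
    have : NeZero (p ^ n) := ⟨pow_ne_zero n hp.out.ne_zero⟩
    rw [AddSubgroup.mem_comap, mem_flatGroup, hsmul]
    exact IsFlat.smul h.hqM (resLift_of_inertia ht) hx
  moved_mem n t ht x := by
    have : NeZero (p ^ n) := ⟨pow_ne_zero n hp.out.ne_zero⟩
    rw [AddSubgroup.mem_comap, mem_flatGroup, map_sub, hsmul]
    exact isFlat_moved h ht (htors n x)
  noHom n H hle hpx hst φ hφ := by
    have : NeZero (p ^ n) := ⟨pow_ne_zero n hp.out.ne_zero⟩
    let e : H ≃+ H.map (i n) := H.equivMapOfInjective (i n) (hinj n)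
    have hcoe : ∀ x : H, (e x : JZero (p * M)) = i n x := fun x => rfl
    have hstab : ∀ τ ∈ A.inertiaSubgroupIn ℚ, ∀ y ∈ H.map (i n), τ • y ∈ H.map (i n) := by
      rintro τ hτ _ ⟨x, hx, rfl⟩
      exact ⟨τ • x, hst τ hτ x hx, hsmul n τ x⟩
    have h0 := hG (H.map (i n)) (by
      rintro _ ⟨x, hx, rfl⟩
      exact IsFlat.isFlatClass h.hqM h.hA (hle hx)
        (by rw [← map_nsmul, hpx x hx, map_zero])) hstab (φ.comp e.symm.toAddMonoidHom)
      (fun τ hτ y => hφ τ hτ (e.symm y) (e.symm ⟨_, hstab τ hτ y y.2⟩)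
        (hinj n (by
          rw [← hcoe, e.apply_symm_apply]
          show τ • (y : JZero (p * M)) = i n (τ • ((e.symm y : H) : ModelLevel _ n))
          rw [hsmul]
          show _ = τ • i n ((e.symm y : H) : ModelLevel _ n)
          rw [← hcoe, e.apply_symm_apply])))
    refine AddMonoidHom.ext fun x => ?_
    simpa using DFunLike.congr_fun h0 (e x)

/-- The flat family on the levels of the model of level `p M`. -/
def flatFamily (h : Setup A M p) (hES : CongruenceProperty (p * M) p)
    (hG : NoFlatHom A M p h.hqM) : FlatFamily (modelOfCongruence hES) A :=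
  flatFamilyOf h hG _ (modelClass hES) (modelClass_injective hES) (modelClass_smul hES)
    (pow_nsmul_modelClass hES)

omit [CharP (Res A) p] [FF.IsFunctionField (Res A) (KM A M)] in
/-- **The square of Frobenius is one on the unramified quotient of new systems**: if `t` kills the
forms of level `M` then `π t (ρ(σ)² - 1)` maps into the line. -/
theorem mul_frobenius_sq_sub_mem (hp3 : 3 ≤ p) (h4 : 4 ∣ M) (hpM : ¬ p ∣ M)
    (hA : A.LiesOverPrime p) (hES : ∀ K [NeZero K], CongruenceProperty K p)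
    (hG : NoFlatHom A M p hpM) {S : Finset ℕ} (hpS : p ∈ S)
    (hNS : ∀ l : ℕ, l.Prime → l ∣ p * M → l ∈ S)
    {T : Type} [CommRing T] [IsLocalRing T] [IsNoetherianRing T] (ρ : GaloisRepAdic T)
    (habs : ρ.residual.IsAbsolutelyIrreducible)
    (hpT : (p : T) ∈ IsLocalRing.maximalIdeal T)
    (π : CuspForm.heckeAlgebra (p * M) 2 (↑S : Set ℕ) →+* T) (hfrob : FrobCharpoly ρ π)
    (hres : (GaloisRepAdic.ofResidualGaloisRep ρ.residual).IsOrdinaryAt p)
    {σ : GQ} (hσ : A.IsFrobeniusAt σ p)
    (t : CuspForm.heckeAlgebra (p * M) 2 (↑S : Set ℕ))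
    (ht : ∀ f : CuspForm (Gamma0 M) 2, t.1 (Newforms.levelIncl (dvd_mul_left M p) f) = 0)
    (L : Submodule T ρ.V) (hL : ∀ τ ∈ A.inertiaSubgroupIn ℚ, ∀ v, ρ.ρ τ v - v ∈ L) (v : ρ.V) :
    π t • (ρ.ρ σ (ρ.ρ σ v) - v) ∈ L := by
  have : CharP (Res A) p := Arith.residueField_charP hA hp.out
  have h := setup_of_four_dvd hA h4 hpM
  have := isFunctionField_KM (A := A) h.hM
  have hm := sum_smul_mem_of_flat (flatFamily h (hES (p * M)) hG) hA ρ habs (by omega) hpT π hfrob
    hres (Set.Subset.refl (↑S : Set ℕ)) π (fun u => congrArg π (Subtype.ext rfl))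
    ![MonoidAlgebra.single (σ * σ) 1 - 1] ![t] (fun n y => ?_) L hL v
  · simpa [mul_smul, map_mul] using hm
  · have : NeZero (p ^ n) := ⟨pow_ne_zero n hp.out.ne_zero⟩
    rw [Fin.sum_univ_one]
    show modelClass (hES (p * M)) n _ ∈ flatGroup A M p h.hqM (p ^ n)
    set z := levelEnd (modelOfCongruence (hES (p * M))) n
      (heckeLevel (modelOfCongruence (hES (p * M))) n t) y
    have e : levelEnd (modelOfCongruence (hES (p * M))) n
        (galAlg (modelOfCongruence (hES (p * M))) n (MonoidAlgebra.single (σ * σ) 1 - 1) *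
          heckeLevel (modelOfCongruence (hES (p * M))) n t) y = (σ * σ) • z - z := by
      rw [map_mul, map_sub (galAlg _ n), map_one, map_sub, map_one]
      show levelEnd _ n (galAlg _ n (MonoidAlgebra.single (σ * σ) 1)) z - z = _
      rw [levelEnd_galAlg_single]
    simp only [Matrix.cons_val_zero] at *
    rw [e, map_sub, modelClass_smul, mul_smul]
    obtain ⟨f, hf, hd, hcls, hn₀, hn₁⟩ := exists_norms_of_killsOld hpM hES S hpS hNS t ht n y
    rw [mem_flatGroup, ← hcls]
    exact isFlat_frobenius_sq h hσ hf hd hn₀ hn₁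

end Fermat.Agent.RT.Lift.AtP

end
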