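import Fermat.Agent.OrdinaryAtP.Restrict
import Fermat.Agent.RT.Glue.Approx

/-!
# Points of a glued representation on one Hecke algebra

The values of the points on the Hecke algebra of a common multiple of their levels come from one
homomorphism to the Hecke algebra of the module.
-/

set_option autoImplicit false
set_option synthInstance.maxHeartbeats 400000
set_option maxHeartbeats 1000000
set_option linter.unusedSectionVars false

noncomputable section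

namespace Fermat.Agent.RT.Lift.AtP

open IsLocalRing CongruenceSubgroup ModularFormClass
open Fermat.Agent.GaloisReps Fermat.Agent.RT.Glue

variable {O : Type} [CommRing O] [IsDomain O] [IsDiscreteValuationRing O]
  [IsAdicComplete (maximalIdeal O) O] [Finite (ResidueField O)] [CharZero O]
  {p : ℕ} [Fact p.Prime]
  {L : ℕ} [NeZero L] {Δ : Type} [CommGroup Δ] [Finite Δ] {ψ : (ZMod L)ˣ →* Δ} {S : Finset ℕ}
  {abar : ℕ → ResidueField O}
  {H : HeckeModule L ψ S abar} {hS : ∀ q : ℕ, q.Prime → q ∣ L → q ∈ S}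
  [IsLocalRing H.algebra] {D : ∀ (M : ℕ) [NeZero M], HeckeGaloisModel M p}
  {pt : ∀ θ : H.algebra →ₐ[O] KBar O, Point (p := p) H hS θ.toRingHom}

/-- The values of the points on the Hecke algebra of a common multiple of their levels come from
one homomorphism. -/
theorem exists_levelHom {N : ℕ} [NeZero N] {S' : Finset ℕ} (hSS : S ⊆ S')
    (hNS : ∀ v : ℕ, v.Prime → v ∣ N → v ∈ S') (hdvd : ∀ θ, (pt θ).M ∣ N) :
    ∃ π : CuspForm.heckeAlgebra N 2 (↑S' : Set ℕ) →+* H.algebra,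
      (∀ (ℓ : ℕ) (hℓ : ℓ.Prime) (hℓN : ¬ ℓ ∣ N) (hℓS : ℓ ∉ (↑S' : Set ℕ)),
        π (CuspForm.heckeAlgebra.T hℓ hℓN hℓS) = sA H hS hℓ (fun h => hℓS (hSS h))) ∧
      ∀ θ : H.algebra →ₐ[O] KBar O, ∃ χ : CuspForm.heckeAlgebra N 2 (↑S' : Set ℕ) →+* ℂ,
        (∀ (ℓ : ℕ) (hℓ : ℓ.Prime) (hℓN : ¬ ℓ ∣ N) (hℓS : ℓ ∉ (↑S' : Set ℕ)),
          χ (CuspForm.heckeAlgebra.T hℓ hℓN hℓS) = qCoeff (pt θ).g ℓ) ∧
        ∀ t, (pt θ).emb (θ (π t)) = χ t := by
  classical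
  have hr := fun θ => OrdinaryAtP.exists_restrictHom (hdvd θ) (Finset.Subset.refl S') hNS
  choose r hr using hr
  let χ : (H.algebra →ₐ[O] KBar O) → CuspForm.heckeAlgebra N 2 (↑S' : Set ℕ) →+* ℂ :=
    fun θ => (ConductorLevel.eigenChar (pt θ).isNewform.1 (↑S' : Set ℕ)).comp (r θ)
  have hχT : ∀ θ (ℓ : ℕ) (hℓ : ℓ.Prime) (hℓN : ¬ ℓ ∣ N) (hℓS : ℓ ∉ (↑S' : Set ℕ)),
      χ θ (CuspForm.heckeAlgebra.T hℓ hℓN hℓS) = qCoeff (pt θ).g ℓ := fun θ ℓ hℓ hℓN hℓS => by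
    show ConductorLevel.eigenChar (pt θ).isNewform.1 (↑S' : Set ℕ) (r θ _) = _
    rw [hr θ ℓ hℓ hℓN hℓS]
    exact ConductorLevel.eigenChar_T _ hℓ _ _
  have hsA : ∀ θ (ℓ : ℕ) (hℓ : ℓ.Prime) (hℓN : ¬ ℓ ∣ N) (hℓS : ℓ ∉ S),
      (pt θ).emb (θ (sA H hS hℓ hℓS)) = qCoeff (pt θ).g ℓ := fun θ ℓ hℓ hℓN hℓS => by
    have hℓM : ¬ ℓ ∣ (pt θ).M := fun h => hℓN (h.trans (hdvd θ))
    show (pt θ).emb (θ.toRingHom (sA H hS hℓ hℓS)) = _
    rw [← (pt θ).value hℓ hℓS, (pt θ).emb_θ', HeckeDuality.heckeOp, dif_neg hℓM]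
    exact ConductorLevel.eigenChar_T _ hℓ hℓM _
  have hex : ∀ t, ∃ x : H.algebra, ∀ θ, (pt θ).emb (θ x) = χ θ t := by
    rintro ⟨t, ht⟩
    induction ht using Algebra.adjoin_induction with
    | mem x hx =>
      rcases hx with ⟨ℓ, hℓ, hℓN, hℓS, rfl⟩ | ⟨v, hvN, hv, hvS, rfl⟩
      · exact ⟨sA H hS hℓ (fun h => hℓS (hSS h)), fun θ =>
          (hsA θ ℓ hℓ hℓN _).trans (hχT θ ℓ hℓ hℓN hℓS).symm⟩
      · exact absurd (hNS v hv hvN) hvS
    | algebraMap z =>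
      refine ⟨(z : H.algebra), fun θ => ?_⟩
      rw [map_intCast, map_intCast]
      exact ((map_intCast (χ θ) z).symm).trans (congrArg (χ θ) (Subtype.ext (by simp)))
    | add a b _ _ iha ihb =>
      obtain ⟨x, hx⟩ := iha
      obtain ⟨y, hy⟩ := ihb
      exact ⟨x + y, fun θ => by rw [map_add, map_add, hx, hy, ← map_add]; rfl⟩
    | mul a b _ _ iha ihb =>
      obtain ⟨x, hx⟩ := iha
      obtain ⟨y, hy⟩ := ihb
      exact ⟨x * y, fun θ => by rw [map_mul, map_mul, hx, hy, ← map_mul]; rfl⟩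
  choose π hπ using hex
  have huniq : ∀ {x y : H.algebra}, (∀ θ, (pt θ).emb (θ x) = (pt θ).emb (θ y)) → x = y :=
    fun h => sub_eq_zero.1 (eq_zero_of_forall_point fun θ => by
      rw [map_sub, (pt θ).emb.injective (h θ), sub_self])
  refine ⟨{ toFun := π
            map_one' := huniq fun θ => by rw [hπ, map_one, map_one, map_one]
            map_mul' := fun a b => huniq fun θ => by simp only [map_mul, hπ]
            map_zero' := huniq fun θ => by rw [hπ, map_zero, map_zero, map_zero]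
            map_add' := fun a b => huniq fun θ => by simp only [map_add, hπ] },
    fun ℓ hℓ hℓN hℓS => huniq fun θ => ?_, fun θ => ⟨χ θ, hχT θ, fun t => hπ t θ⟩⟩
  exact (hπ _ θ).trans ((hχT θ ℓ hℓ hℓN hℓS).trans (hsA θ ℓ hℓ hℓN _).symm)

end Fermat.Agent.RT.Lift.AtP

end
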