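import Fermat.Agent.RT.Lift.AtP.New
import Fermat.Agent.Semistable.General

/-!
# Pulling back classes from level `M` to level `p M`
-/

set_option autoImplicit false
set_option synthInstance.maxHeartbeats 400000
set_option maxHeartbeats 1000000
set_option linter.unusedSectionVars false
set_option linter.style.haveILetI false

noncomputable section

namespace Fermat.Agent.RT.Lift.AtP

open AlgebraicCurve ModularCurve
open Fermat.Agent.Semistable Fermat.Agent.RT.MazurP
open Fermat.Agent.OrdinaryAtP (HasUnitRed)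
open Arith (QBar GQ)

/-! ### Pull back of classes -/

section Pullback

variable {R N : ℕ} [NeZero R] [NeZero N] (φ : FB R →ₐ[QBar] FB N)

/-- The pull back on classes. -/
def pullClass : JZero R →+ JZero N :=
  QuotientAddGroup.map _ _
    (((Divisor.pullbackAlong φ (FF.isIntegralAlong φ)).domRestrict
      (Divisor.degZero (K := QBar) (F := FB R))).codRestrict
        (Divisor.degZero (K := QBar) (F := FB N))
        fun D => Divisor.pullbackAlong_mem_degZero φ (FF.isIntegralAlong φ)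
          (FF.fundamentalIdentityAlong φ _) D.2)
    (by
      rintro ⟨D, hD0⟩ hD
      simp only [AddSubgroup.mem_addSubgroupOf] at hD ⊢
      exact Divisor.isPrincipal_pullbackAlong φ (FF.isIntegralAlong φ) hD)

theorem pullClass_smul
    (hφ : ∀ (σ : GQ) (x : FB R), φ (galF R σ x) = galF N σ (φ x)) (σ : GQ) (x : JZero R) :
    pullClass φ (σ • x) = σ • pullClass φ x := by
  obtain ⟨D, rfl⟩ := Pic0.mk_surjective x
  refine congrArg Pic0.mk (Subtype.ext ?_)
  exact GaloisReps.pullbackAlong_smul (arithmeticGalois (modularFunctionFieldFull R) σ)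
    (arithmeticGalois (modularFunctionFieldFull N) σ) φ (FF.isIntegralAlong φ) (hφ σ) _

/-- The pull back of a class is the class of the pulled back function. -/
theorem pullClass_cls {m : ℕ} [NeZero m] {f : FB R} (hf : f ≠ 0)
    (hd : ∀ v : Place QBar (FB R), (m : ℤ) ∣ v.ord f) :
    ∃ hd' : ∀ w : Place QBar (FB N), (m : ℤ) ∣ w.ord (φ f),
      pullClass φ (cls m hf hd) = cls m ((map_ne_zero φ).mpr hf) hd' := by
  set u : JacTorsion.divGrp QBar (FB R) m := ⟨Units.mk0 f hf, hd⟩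
  set D := JacTorsion.divQuot u
  have hi := FF.isIntegralAlong φ
  have key : ∀ w : Place QBar (FB N),
      w.ord (φ f) = (m : ℤ) * Divisor.pullbackAlong φ hi D w := fun w => by
    have h : Divisor.pullbackAlong φ hi (FF.div QBar f) w = w.ord (φ f) := by
      letI := algebraAlong φ
      haveI := isScalarTower_along φ
      haveI := isIntegral_along φ hi
      exact Divisor.pullback_apply_eq_ord (fun v => JacTorsion.div_apply _ v) w
    have e : Divisor.pullbackAlong φ hi (FF.div QBar f) =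
        (m : ℤ) • Divisor.pullbackAlong φ hi D := by
      rw [← map_zsmul]
      exact congrArg _ (JacTorsion.smul_divQuot u).symm
    rw [e, Finsupp.smul_apply, smul_eq_mul] at h
    exact h.symm
  refine ⟨fun v => by rw [key]; exact dvd_mul_right _ _, ?_⟩
  exact (cls_eq_mk ((map_ne_zero φ).mpr hf) _
    ⟨_, Divisor.pullbackAlong_mem_degZero φ hi (FF.fundamentalIdentityAlong φ _)
      (JacTorsion.divQuot_mem_degZero u)⟩ key).symm

/-- Pushing forward a pull back multiplies by the degree. -/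
theorem pushClass_pullClass (x : JZero R) :
    pushClass φ (pullClass φ x) = finrankAlong QBar φ • x := by
  obtain ⟨D, rfl⟩ := Pic0.mk_surjective x
  refine congrArg Pic0.mk (Subtype.ext ?_)
  have hi := FF.isIntegralAlong φ
  show Divisor.pushforwardAlong φ hi (Divisor.pullbackAlong φ hi (D : Divisor QBar (FB R))) = _
  letI := algebraAlong φ
  haveI := isScalarTower_along φ
  haveI := isIntegral_along φ (FF.isIntegralAlong φ)
  haveI : FiniteDimensional (FB R) (FB N) := FF.finiteAlong φ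
  exact (pushforward_pullback (F' := FB N) _).trans (AddSubgroup.coe_nsmul _ D _).symm

end Pullback

variable {A : ValuationSubring QBar} {M p : ℕ} [NeZero M] [hp : Fact p.Prime]

/-- The pull back to level `p M` is injective on classes of `p`-power order. -/
theorem pullClass_upF_eq_zero (hpM : ¬ p ∣ M) {n : ℕ} {x : JZero M} (hx : p ^ n • x = 0)
    (h0 : pullClass (upF M p) x = 0) : x = 0 := by
  have h : (p + 1) • x = 0 := by
    rw [← NewformLocal.Toric.finrankAlong_upF p M hpM, ← pushClass_pullClass, h0, map_zero]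
  have hcop : Nat.Coprime (p + 1) (p ^ n) := by
    refine Nat.Coprime.pow_right n (Nat.Coprime.symm ?_)
    rw [Nat.coprime_self_add_right]
    exact Nat.coprime_one_right p
  refine AddMonoid.addOrderOf_eq_one_iff.mp (Nat.eq_one_of_dvd_one ?_)
  rw [← hcop.gcd_eq_one]
  exact Nat.dvd_gcd (addOrderOf_dvd_of_nsmul_eq_zero h) (addOrderOf_dvd_of_nsmul_eq_zero hx)

variable (hpM : ¬ p ∣ M) [CharP (Res A) p]

/-- A function of level `M` with reduction one gives unit reductions at level `p M`. -/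
theorem hasUnitRed_upF {x : FB M} (hl : (x : LSer) ∈ locS A) (hr : redL A ⟨_, hl⟩ = 1) :
    HasUnitRed A M p hpM (upF M p x) := by
  have h0 : ∃ h : iota2 M p hpM 0 (upF M p x) ∈ locS A, redL A ⟨_, h⟩ = 1 := by
    have e : iota2 M p hpM 0 (upF M p x) = (x : LSer) := by rw [iota2_zero, coe_upF]
    exact ⟨e ▸ hl, (redL_congr _ hl e).trans hr⟩
  have h1 : ∃ h : iota2 M p hpM 1 (upF M p x) ∈ locS A, redL A ⟨_, h⟩ = 1 := by
    have e : iota2 M p hpM 1 (upF M p x) = qExpand QBar p (x : LSer) := by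
      rw [iota2_one, wEquiv_upF, coe_downF]
    refine ⟨e ▸ qExpand_mem_locS p hl, ?_⟩
    rw [redL_congr _ (qExpand_mem_locS p hl) e, redL_qExpand p hl, hr, map_one]
  have h : ∀ s, ∃ h : iota2 M p hpM s (upF M p x) ∈ locS A, redL A ⟨_, h⟩ = 1 :=
    Fin.forall_fin_two.mpr ⟨h0, h1⟩
  exact ⟨(mem_loc2 _).mpr fun s => (h s).1, funext fun s => by
    rw [red2_apply, Pi.one_apply]; exact (redL_congr _ _ rfl).trans (h s).2⟩

include hpM

/-- The reduction of the Hecke norm at `p`. -/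
theorem redL_heckeNorm (hA : A.LiesOverPrime p) {f : FB M} (hf : (f : LSer) ∈ locS A) :
    ∃ h : (heckeNorm M p f : LSer) ∈ locS A, redL A ⟨_, h⟩ =
      qExpand (Res A) p (redL A ⟨_, hf⟩) *
        coeffMap (frobenius (Res A) p) (redL A ⟨_, hf⟩) := by
  obtain ⟨ζ, hζ⟩ := exists_primitive (N := M) hp.out hpM
  obtain ⟨h1, e1⟩ := heckeProd_mem_locS (A := A) hζ.pow_eq_one hf
  obtain ⟨h2, e2⟩ := locS_of_qExpand (l := p) hA hp.out (mem_fracS_of_mem (heckeNorm M p f))
    ((qExpand_heckeNorm hp.out hpM hζ f).symm ▸ h1)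
  refine ⟨h2, qExpand_injective p ?_⟩
  have hu : resRoot A ζ hζ.pow_eq_one = 1 := by
    refine Units.ext (sub_eq_zero.mp ((pow_eq_zero_iff hp.out.ne_zero).mp ?_))
    have hone : resRoot A ζ hζ.pow_eq_one ^ p = 1 := by
      refine (resRoot_pow ζ hζ.pow_eq_one p (by rw [hζ.pow_eq_one, one_pow])).symm.trans ?_
      refine Units.ext ?_
      show IsLocalRing.residue A ⟨((ζ ^ p : QBarˣ) : QBar), _⟩ = 1
      rw [← map_one (IsLocalRing.residue A)]
      refine congrArg (IsLocalRing.residue A) (Subtype.ext ?_)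
      show ((ζ ^ p : QBarˣ) : QBar) = 1
      rw [hζ.pow_eq_one, Units.val_one]
    rw [sub_pow_char, Units.val_one, one_pow, ← Units.val_pow_eq_pow_val, hone, Units.val_one,
      sub_self]
  refine e2.trans ((redL_congr _ h1 (qExpand_heckeNorm hp.out hpM hζ f)).trans ?_)
  refine e1.trans ?_
  have ht : ∀ i : ℕ, ModFun.twist (resRoot A ζ hζ.pow_eq_one ^ i) (redL A ⟨_, hf⟩) =
      redL A ⟨_, hf⟩ := fun i => by
    ext k
    rw [ModFun.coeff_twist, hu, one_pow, one_zpow, Units.val_one, one_mul]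
  rw [heckeProd_apply, map_mul, Finset.prod_congr rfl (fun (i : Fin p) _ => ht (i : ℕ)), Finset.prod_const,
    Finset.card_univ, Fintype.card_fin, ← EichlerShimura.pow_eq_qExpand_frobenius p]

/-- `σ T_p - σ² - p` gives a Kummer function with reduction one. -/
theorem redL_quadratic (hA : A.LiesOverPrime p) {σ : GQ} (hσ : A.IsFrobeniusAt σ p) {f : FB M}
    (hf : (f : LSer) ∈ locS A) (hf0 : redL A ⟨_, hf⟩ ≠ 0) :
    ∃ h : ((galF M σ (heckeNorm M p f) * (galF M σ (galF M σ f) * f ^ p)⁻¹ : FB M) : LSer) ∈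
        locS A, redL A ⟨_, h⟩ = 1 := by
  have hφ := resLift_of_frobenius (q := p) hσ
  obtain ⟨hN, eN⟩ := redL_heckeNorm hpM hA hf
  obtain ⟨hσN, eσN⟩ := hφ.redL_coeffMap hN
  obtain ⟨hσ1, eσ1⟩ := hφ.redL_coeffMap hf
  obtain ⟨hσ2, eσ2⟩ := hφ.redL_coeffMap hσ1
  set z := redL A ⟨_, hf⟩
  set den : locS A := ⟨_, hσ2⟩ * ⟨_, hf⟩ ^ p with hden
  have hden' : redL A den = coeffMap (frobenius (Res A) p) (coeffMap (frobenius (Res A) p) z) *
      z ^ p := by
    rw [hden, map_mul, map_pow, eσ2, eσ1]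
  have hz1 : coeffMap (frobenius (Res A) p) z ≠ 0 :=
    fun h0 => hf0 (coeffMap_injective _ (h0.trans (map_zero _).symm))
  have hden0 : redL A den ≠ 0 := by
    rw [hden']
    exact mul_ne_zero (fun h0 => hz1 (coeffMap_injective _ (h0.trans (map_zero _).symm)))
      (pow_ne_zero _ hf0)
  obtain ⟨hi, ei⟩ := inv_mem_locS den.2 hden0
  have e : ((galF M σ (heckeNorm M p f) * (galF M σ (galF M σ f) * f ^ p)⁻¹ : FB M) : LSer) =
      coeffMap (σ : QBar →+* QBar) (heckeNorm M p f : LSer) * (den : LSer)⁻¹ := by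
    rw [hden]
    push_cast
    simp only [coe_arithmeticRingAut]
  refine ⟨e ▸ mul_mem hσN hi, ?_⟩
  rw [redL_congr _ (mul_mem hσN hi) e,
    show (⟨_, mul_mem hσN hi⟩ : locS A) = ⟨_, hσN⟩ * ⟨_, hi⟩ from rfl, map_mul, eσN, ei, eN,
    map_mul, EichlerShimura.coeffMap_frobenius_qExpand p, show (⟨_, den.2⟩ : locS A) = den from rfl,
    hden', mul_comm _ (z ^ p), mul_inv_cancel₀]
  exact mul_ne_zero (pow_ne_zero _ hf0) fun h0 => hz1 (coeffMap_injective _ (h0.trans (map_zero _).symm))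

variable {m : ℕ} [NeZero m]

/-- Classes at level `M`: `σ T_p x - σ² x - p x` pulls back to a flat class. -/
theorem isFlat_quadratic (hA : A.LiesOverPrime p) {σ : GQ} (hσ : A.IsFrobeniusAt σ p)
    {x : JZero M} (hx : m • x = 0) :
    IsFlat A M p hpM m (pullClass (upF M p)
      (σ • heckeOperatorBar M ⟨p, hp.out⟩ x - σ • σ • x - p • x)) := by
  obtain ⟨f₁, hf₁⟩ := JacTorsion.toTorsion_surjective
    (⟨x, by rw [Pic0.mem_torsion, natCast_zsmul]; exact hx⟩ : Pic0.torsion QBar (FB M) m)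
  set g₁ : FB M := ((f₁.toMul : (FB M)ˣ) : FB M)
  have hg₁ : g₁ ≠ 0 := Units.ne_zero _
  obtain ⟨c, hc, hcy, hcr⟩ := exists_scale hA hp.out (mem_fracS_of_mem g₁)
    (fun h0 => hg₁ (Subtype.ext h0))
  set f : FB M := algebraMap QBar (FB M) c * g₁
  have hf : f ≠ 0 := mul_ne_zero ((map_ne_zero _).mpr hc) hg₁
  have hfe : f = algebraMap QBar (FB M) c * g₁ * 1 ^ m := by rw [one_pow, mul_one]
  have hfd : ∀ v : Place QBar (FB M), (m : ℤ) ∣ v.ord f := fun v => by
    rw [hfe]; exact dvd_ord_const_mul_pow hc hg₁ one_ne_zero f₁.toMul.2 v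
  have hcls : cls m hf hfd = x := by
    have h1 : cls m hg₁ f₁.toMul.2 = x := by
      refine Eq.trans ?_ (congrArg Subtype.val hf₁)
      exact congrArg (fun w => ((JacTorsion.toTorsion (Additive.ofMul w) :
        Pic0.torsion QBar (FB M) m) : JZero M)) (Subtype.ext (Units.ext rfl))
    rw [cls_congr hfe hf (hfe ▸ hf) hfd (dvd_ord_const_mul_pow hc hg₁ one_ne_zero f₁.toMul.2)]
    exact (cls_const_mul_pow hc hg₁ one_ne_zero f₁.toMul.2 (hfe ▸ hf)).trans h1
  have hfl : (f : LSer) ∈ locS A := hcy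
  -- the class of the norm
  have hin := FF.heckeInputsAlong QBar M p
  have := hin.snd.snd.fst
  obtain ⟨f', hf', htor⟩ := GaloisReps.correspondence_toTorsion (heckeBetaBar QBar M p)
    (heckeAlphaBar QBar M p) hin.snd.fst hin.fst hin.snd.snd.snd.snd.1
    hin.snd.snd.snd.fst hin.snd.snd.snd.snd.2
    (⟨Units.mk0 f hf, hfd⟩ : JacTorsion.divGrp QBar (FB M) m)
  set N := heckeNorm M p f
  have hN0 : N ≠ 0 := heckeNorm_ne_zero hf
  have hf'N : ((f' : (FB M)ˣ) : FB M) = N := hf'
  have hNd : ∀ v : Place QBar (FB M), (m : ℤ) ∣ v.ord N := fun v => hf'N ▸ f'.2 v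
  have hT : heckeOperatorBar M ⟨p, hp.out⟩ x = cls m hN0 hNd := by
    rw [← hcls]
    show heckeOperatorAlong QBar M p _ = _
    rw [heckeOperatorAlong, dif_pos hin]
    refine htor.symm.trans ?_
    exact congrArg (fun w => ((JacTorsion.toTorsion (Additive.ofMul w) :
      Pic0.torsion QBar (FB M) m) : JZero M)) (Subtype.ext (Units.ext hf'N))
  set den : FB M := galF M σ (galF M σ f) * f ^ p
  have hpd : ∀ v : Place QBar (FB M), (m : ℤ) ∣ v.ord (f ^ p) := fun v => by
    rw [FF.ord_pow v]; exact (hfd v).mul_left _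
  have hs2 : galF M σ (galF M σ f) ≠ 0 := galF_ne_zero σ (galF_ne_zero σ hf)
  have hden : den ≠ 0 := mul_ne_zero hs2 (pow_ne_zero _ hf)
  have hdd : ∀ v : Place QBar (FB M), (m : ℤ) ∣ v.ord den := fun v => by
    rw [v.ord_mul hs2 (pow_ne_zero _ hf)]
    exact dvd_add (dvd_ord_galF σ (dvd_ord_galF σ hfd) v) (hpd v)
  have hp_cls : cls m (pow_ne_zero p hf) hpd = p • x := by
    have hzd : ∀ v : Place QBar (FB M), (m : ℤ) ∣ v.ord (f ^ (p : ℤ)) := fun v => by
      rw [zpow_natCast]; exact hpd v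
    rw [← hcls, ← natCast_zsmul, ← cls_zpow hf hfd p hzd]
    exact cls_congr (zpow_natCast f p).symm _ _ _ _
  have hid : ∀ v : Place QBar (FB M), (m : ℤ) ∣ v.ord den⁻¹ := fun v => by
    rw [v.ord_inv]; exact (hdd v).neg_right
  have hFd : ∀ v : Place QBar (FB M), (m : ℤ) ∣ v.ord (galF M σ N * den⁻¹) := fun v => by
    rw [v.ord_mul (galF_ne_zero σ hN0) (inv_ne_zero hden)]
    exact dvd_add (dvd_ord_galF σ hNd v) (hid v)
  have hF : galF M σ N * den⁻¹ ≠ 0 := mul_ne_zero (galF_ne_zero σ hN0) (inv_ne_zero hden)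
  have hinv : cls m (inv_ne_zero hden) hid = -cls m hden hdd := by
    refine eq_neg_of_add_eq_zero_left ?_
    have hd1 : ∀ v : Place QBar (FB M), (m : ℤ) ∣ v.ord (den⁻¹ * den) := fun v => by
      rw [inv_mul_cancel₀ hden, v.ord_one]; exact dvd_zero _
    rw [← cls_mul (inv_ne_zero hden) hden hid hdd hd1]
    exact (cls_eq_zero_iff _ hd1).mpr ⟨1, one_ne_zero, by rw [inv_mul_cancel₀ hden, one_pow]⟩
  have hclsF : cls m hF hFd = σ • heckeOperatorBar M ⟨p, hp.out⟩ x - σ • σ • x - p • x := by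
    rw [cls_mul (galF_ne_zero σ hN0) (inv_ne_zero hden) (dvd_ord_galF σ hNd) hid hFd, hinv,
      cls_mul hs2 (pow_ne_zero _ hf) (dvd_ord_galF σ (dvd_ord_galF σ hfd)) hpd hdd, hp_cls,
      ← smul_cls σ (galF_ne_zero σ hf) (dvd_ord_galF σ hfd), ← smul_cls σ hf hfd, hcls,
      ← smul_cls σ hN0 hNd, ← hT]
    abel
  obtain ⟨hd', e⟩ := pullClass_cls (upF M p) hF hFd
  obtain ⟨hl, hr⟩ := redL_quadratic hpM hA hσ hfl hcr
  exact ⟨_, (map_ne_zero _).mpr hF, hd', by rw [← e, hclsF], hasUnitRed_upF hpM hl hr⟩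

end Fermat.Agent.RT.Lift.AtP

end
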