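import Fermat.Agent.RT.Lift.AtP.Family
import Fermat.Agent.RT.Lift.AtP.Pull

/-!
# Systems at level `M` prime to `p`: ordinarity and the quadratic relation of Frobenius

The classes of level `M` are pulled back to level `p M`. The congruence of `T_p` gives that
`ρ(σ)² - π(T_p) ρ(σ) + p` maps into the line.
-/

set_option autoImplicit false
set_option linter.unusedSectionVars false

noncomputable section

namespace Fermat.Agent.RT.Lift.AtP

open AlgebraicCurve ModularCurve
open Fermat.Agent.Semistable Fermat.Agent.RT.MazurP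
open Fermat.Agent.GaloisReps
open Fermat.Agent.OrdinaryAtP (levelEnd)
open Fermat.Agent.Carayol (actTors)
open Arith (QBar GQ)
open scoped MonoidAlgebra

variable {M p : ℕ} [NeZero M] [hp : Fact p.Prime]

variable (p) in
/-- The classes of the model of level `M` at level `p M`. -/
def modelPull (hES : CongruenceProperty M p) (n : ℕ) :
    ModelLevel (modelOfCongruence hES) n →+ JZero (p * M) :=
  (pullClass (upF M p)).comp (modelClass hES n)

theorem modelPull_injective (hpM : ¬ p ∣ M) (hES : CongruenceProperty M p) (n : ℕ) :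
    Function.Injective (modelPull p hES n) := by
  refine (injective_iff_map_eq_zero _).mpr fun x hx => modelClass_injective hES n ?_
  rw [(modelClass hES n).map_zero]
  exact pullClass_upF_eq_zero hpM (pow_nsmul_modelClass hES n x) hx

theorem modelPull_smul (hES : CongruenceProperty M p) (n : ℕ) (σ : GQ)
    (x : ModelLevel (modelOfCongruence hES) n) :
    modelPull p hES n (σ • x) = σ • modelPull p hES n x := by
  show pullClass (upF M p) (modelClass hES n (σ • x)) =
    σ • pullClass (upF M p) (modelClass hES n x)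
  rw [modelClass_smul, pullClass_smul (upF M p) fun τ z => (galF_upF M p τ z).symm]

theorem pow_nsmul_modelPull (hES : CongruenceProperty M p) (n : ℕ)
    (x : ModelLevel (modelOfCongruence hES) n) : p ^ n • modelPull p hES n x = 0 := by
  show p ^ n • pullClass (upF M p) (modelClass hES n x) = 0
  rw [← (pullClass (upF M p)).map_nsmul, pow_nsmul_modelClass, (pullClass (upF M p)).map_zero]

/-- `T_p` on the classes of the model. -/
theorem modelClass_T (hpM : ¬ p ∣ M) (hES : CongruenceProperty M p) {S : Finset ℕ} (hpS : p ∉ S)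
    (n : ℕ) (y : ModelLevel (modelOfCongruence hES) n) :
    modelClass hES n (levelEnd (modelOfCongruence hES) n (heckeLevel (modelOfCongruence hES) n
      (CuspForm.heckeAlgebra.T (S := (↑S : Set ℕ)) hp.out hpM (by simpa using hpS))) y) =
      heckeOperatorBar M ⟨p, hp.out⟩ (modelClass hES n y) := by
  rw [modelClass_hecke, toFull_T, Carayol.actTors_heckeOp]
  rfl

variable {A : ValuationSubring QBar}

/-- The flat family on the levels of the model of level `M`. -/
def flatFamilyLow [CharP (Res A) p] [FF.IsFunctionField (Res A) (KM A M)] (h : Setup A M p)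
    (hES : CongruenceProperty M p) (hG : NoFlatHom A M p h.hqM) :
    FlatFamily (modelOfCongruence hES) A :=
  flatFamilyOf h hG _ (modelPull p hES) (modelPull_injective h.hqM hES) (modelPull_smul hES)
    (pow_nsmul_modelPull hES)

variable {T : Type} [CommRing T] [IsLocalRing T] [IsNoetherianRing T]

/-- **The quadratic relation of Frobenius on the unramified quotient at level prime to `p`.** -/
theorem quadratic_mem (hp3 : 3 ≤ p) (h4 : 4 ∣ M) (hpM : ¬ p ∣ M) (hA : A.LiesOverPrime p)
    (hES : CongruenceProperty M p) (hG : NoFlatHom A M p hpM) {S S' : Finset ℕ}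
    (hS : (↑S' : Set ℕ) ⊆ ↑S) (hpS' : p ∉ S') (ρ : GaloisRepAdic T)
    (habs : ρ.residual.IsAbsolutelyIrreducible)
    (hpT : (p : T) ∈ IsLocalRing.maximalIdeal T)
    (π : CuspForm.heckeAlgebra M 2 (↑S : Set ℕ) →+* T) (hfrob : FrobCharpoly ρ π)
    (hres : (GaloisRepAdic.ofResidualGaloisRep ρ.residual).IsOrdinaryAt p)
    (π' : CuspForm.heckeAlgebra M 2 (↑S' : Set ℕ) →+* T) (hπ : ∀ t, π' (heckeIncl hS t) = π t)
    {σ : GQ} (hσ : A.IsFrobeniusAt σ p)
    (L : Submodule T ρ.V) (hL : ∀ τ ∈ A.inertiaSubgroupIn ℚ, ∀ v, ρ.ρ τ v - v ∈ L) (v : ρ.V) :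
    ρ.ρ σ (ρ.ρ σ v) -
        π' (CuspForm.heckeAlgebra.T hp.out hpM (by simpa using hpS')) • ρ.ρ σ v +
      (p : T) • v ∈ L := by
  have : CharP (Res A) p := Arith.residueField_charP hA hp.out
  have h := setup_of_four_dvd hA h4 hpM
  have := isFunctionField_KM (A := A) h.hM
  let D := modelOfCongruence hES
  let Tp : CuspForm.heckeAlgebra M 2 (↑S' : Set ℕ) :=
    CuspForm.heckeAlgebra.T hp.out hpM (by simpa using hpS')
  have hm := sum_smul_mem_of_flat (flatFamilyLow h hES hG) hA ρ habs (by omega) hpT π hfrob hres
    hS π' hπ ![MonoidAlgebra.single (σ * σ) 1, MonoidAlgebra.single σ 1, 1]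
    ![1, -Tp, (p : CuspForm.heckeAlgebra M 2 (↑S' : Set ℕ))] (fun n y => ?_) L hL v
  · rw [Fin.sum_univ_three] at hm
    simp only [Matrix.cons_val, repAlg_single, one_smul, map_one (repAlg ρ), Module.End.one_apply,
      π'.map_one, π'.map_neg, map_natCast π', map_mul ρ.ρ, Module.End.mul_apply, neg_smul,
      ← sub_eq_add_neg] at hm
    exact hm
  · have : NeZero (p ^ n) := ⟨pow_ne_zero n hp.out.ne_zero⟩
    show modelPull p hES n _ ∈ flatGroup A M p h.hqM (p ^ n)
    let z := modelClass hES n y
    have e : modelClass hES n (levelEnd D n (∑ i : Fin 3,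
        galAlg D n (![MonoidAlgebra.single (σ * σ) 1, MonoidAlgebra.single σ 1, 1] i) *
          heckeLevel D n (![1, -Tp, (p : CuspForm.heckeAlgebra M 2 (↑S' : Set ℕ))] i)) y) =
        -(σ • heckeOperatorBar M ⟨p, hp.out⟩ z - σ • σ • z - p • z) := by
      rw [Fin.sum_univ_three]
      simp only [Matrix.cons_val, map_one (galAlg D n), (heckeLevel D n).map_one,
        (heckeLevel D n).map_neg, map_natCast (heckeLevel D n), mul_neg, one_mul, mul_one,
        (levelEnd D n).map_add, (levelEnd D n).map_neg, (levelEnd D n).map_mul,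
        map_natCast (levelEnd D n)]
      show modelClass hES n (levelEnd D n (galAlg D n (MonoidAlgebra.single (σ * σ) 1)) y +
        -(levelEnd D n (galAlg D n (MonoidAlgebra.single σ 1))
          (levelEnd D n (heckeLevel D n Tp) y)) + (p : AddMonoid.End (ModelLevel D n)) y) = _
      simp only [levelEnd_galAlg_single, AddMonoid.End.natCast_apply]
      rw [(modelClass hES n).map_add, (modelClass hES n).map_add, (modelClass hES n).map_neg,
        (modelClass hES n).map_nsmul, modelClass_smul, modelClass_smul,
        modelClass_T hpM hES hpS' n y, mul_smul]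
      abel
    show pullClass (upF M p) (modelClass hES n _) ∈ _
    rw [e, (pullClass (upF M p)).map_neg]
    exact neg_mem (isFlat_quadratic hpM hA hσ (pow_nsmul_modelClass hES n y))

end Fermat.Agent.RT.Lift.AtP

end
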