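import Fermat.Agent.RT.Lift.AtP.Glued
import Fermat.Agent.RT.Lift.AtP.Old
import Fermat.Agent.OrdinaryAtP.Connected
import Fermat.Agent.GaloisReps.OfInjective
import Fermat.Agent.EichlerShimura.InjectiveProof

/-!
# The vanishing on flat classes and the congruence property, without hypotheses
-/

set_option autoImplicit false
set_option synthInstance.maxHeartbeats 400000

noncomputable section

namespace Fermat.Agent.RT.Lift.AtP

open IsLocalRing
open Fermat.Agent.GaloisReps Fermat.Agent.RT.Glue
open Arith (QBar GQ)

theorem noFlatHom {A : ValuationSubring QBar} {M p : ℕ} [NeZero M] [Fact p.Prime]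
    (hA : A.LiesOverPrime p) (hp3 : 3 ≤ p) (h4 : 4 ∣ M) (hpM : ¬ p ∣ M) : NoFlatHom A M p hpM :=
  fun H hflat hstab π hπ =>
    OrdinaryAtP.eq_zero_of_invariant_of_flat (hpM := hpM) hA hp3 h4 H hflat hstab π hπ

theorem congruence (K p : ℕ) [NeZero K] [Fact p.Prime] : CongruenceProperty K p :=
  congruenceProperty_all EichlerShimura.injectiveOnTorsion_all K p

end Fermat.Agent.RT.Lift.AtP

end
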