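import Fermat.Agent.RT.Lift.Lower.Strict

/-!
# Glued representations are ordinary at `p`, and their unit roots at the points

When no point has `p ^ 2` in its level, the representation is ordinary at `p`. At a point the
scalar by which a Frobenius element acts on the unramified quotient is a root of
`X ^ 2 - a_p X + p` if the point is old at `p`, and has square one if it is new.
-/

set_option autoImplicit false
set_option synthInstance.maxHeartbeats 400000
set_option maxHeartbeats 1000000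
set_option linter.unusedSectionVars false

noncomputable section

namespace Fermat.Agent.RT.Lift.AtP

open IsLocalRing Module CongruenceSubgroup ModularFormClass
open Fermat.Agent.GaloisReps Fermat.Agent.RT.Glue
open Arith (QBar GQ)

variable {O : Type} [CommRing O] [IsDomain O] [IsDiscreteValuationRing O]
  [IsAdicComplete (maximalIdeal O) O] [Finite (ResidueField O)] [CharZero O]
  {p : ℕ} [Fact p.Prime]
  {L : ℕ} [NeZero L] {Δ : Type} [CommGroup Δ] [Finite Δ] {ψ : (ZMod L)ˣ →* Δ} {S : Finset ℕ}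
  {abar : ℕ → ResidueField O}
  {H : HeckeModule L ψ S abar} {hS : ∀ q : ℕ, q.Prime → q ∣ L → q ∈ S}
  [IsLocalRing H.algebra] {D : ∀ (M : ℕ) [NeZero M], HeckeGaloisModel M p}
  {pt : ∀ θ : H.algebra →ₐ[O] KBar O, Point (p := p) H hS θ.toRingHom}

/-- A divisor of `L ^ 2` in which `p` occurs at most once divides `p M₀`; if `p` does not occur,
it divides `M₀`. -/
theorem dvd_levelAway {M : ℕ} (hM : M ∣ L ^ 2) :
    (¬ p ∣ M → M ∣ 4 * (L ^ 2 / p ^ (L ^ 2).factorization p)) ∧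
      (¬ p ^ 2 ∣ M → M ∣ p * (4 * (L ^ 2 / p ^ (L ^ 2).factorization p))) := by
  have hpr : p.Prime := Fact.out
  have key : ∀ M' : ℕ, M' ∣ L ^ 2 → ¬ p ∣ M' → M' ∣ 4 * (L ^ 2 / p ^ (L ^ 2).factorization p) :=
    fun M' h1 h2 => dvd_mul_of_dvd_right (Nat.dvd_ordCompl_of_dvd_not_dvd h1 h2) 4
  refine ⟨key M hM, fun hsq => ?_⟩
  by_cases h : p ∣ M
  · obtain ⟨M', rfl⟩ := h
    refine mul_dvd_mul_left p (key M' ((dvd_mul_left M' p).trans hM) fun h' => hsq ?_)
    rw [pow_two]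
    exact mul_dvd_mul_left p h'
  · exact dvd_mul_of_dvd_right (key M hM h) p

theorem levelAway_spec (hp3 : 3 ≤ p) :
    4 * (L ^ 2 / p ^ (L ^ 2).factorization p) ≠ 0 ∧
      ¬ p ∣ 4 * (L ^ 2 / p ^ (L ^ 2).factorization p) := by
  have hpr : p.Prime := Fact.out
  have hL2 : L ^ 2 ≠ 0 := pow_ne_zero 2 (NeZero.ne L)
  refine ⟨mul_ne_zero (by norm_num) (Nat.ordCompl_pos p hL2).ne', fun h => ?_⟩
  refine (hpr.dvd_mul.mp h).elim (fun h' => ?_) (Nat.not_dvd_ordCompl hpr hL2)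
  have := (Nat.prime_dvd_prime_iff_eq hpr Nat.prime_two).mp
    (hpr.dvd_of_dvd_pow (show p ∣ 2 ^ 2 from h'))
  omega

/-- **A glued representation without `p ^ 2` in the levels of its points is ordinary at `p`.** -/
theorem isOrdinaryAt_glued (G : Glued D pt) (hp : (p : O) ∈ maximalIdeal O) (hΔ : IsPGroup p Δ)
    (hp3 : 3 ≤ p) (hpS : p ∈ S) (habs : G.rep.residual.IsAbsolutelyIrreducible)
    (hres : (GaloisRepAdic.ofResidualGaloisRep G.rep.residual).IsOrdinaryAt p)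
    (hsq : ∀ θ, ¬ p ^ 2 ∣ (pt θ).M) : G.rep.IsOrdinaryAt p := by
  classical
  have hpr : p.Prime := Fact.out
  obtain ⟨hM0, hpM⟩ := levelAway_spec (p := p) (L := L) hp3
  set M₀ : ℕ := 4 * (L ^ 2 / p ^ (L ^ 2).factorization p) with hM₀
  have h4 : 4 ∣ M₀ := dvd_mul_right 4 _
  have : NeZero M₀ := ⟨hM0⟩
  have : NeZero (p * M₀) := ⟨mul_ne_zero hpr.ne_zero hM0⟩
  set S' : Finset ℕ := S ∪ (p * M₀).primeFactors
  have hNS : ∀ v : ℕ, v.Prime → v ∣ p * M₀ → v ∈ S' := fun v hv h =>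
    Finset.mem_union_right _ (Nat.mem_primeFactors.mpr ⟨hv, h, NeZero.ne _⟩)
  obtain ⟨π, hπT, -⟩ := exists_levelHom (pt := pt) (N := p * M₀) (S' := S')
    Finset.subset_union_left hNS fun θ => (dvd_levelAway (pt θ).dvd).2 (hsq θ)
  have hfrob : FrobCharpoly G.rep π := fun ℓ hℓ hℓN hℓS A hA σ hσ => by
    rw [hπT]
    exact G.charpoly_frobenius hpS hℓ _ hA hσ
  have : IsNoetherianRing H.algebra := isNoetherian_of_tower O inferInstance
  refine OrdinaryAtP.isOrdinaryAt_of_noHom (modelOfCongruence (congruence (p * M₀) p)) G.rep habs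
    (by omega) (G.detIsCyclotomic hp hΔ).1 π hfrob hres fun P hP => ?_
  have : CharP (Semistable.Res P) p := Arith.residueField_charP hP Fact.out
  have h := setup_of_four_dvd hP h4 hpM
  have := Semistable.isFunctionField_KM (A := P) h.hM
  exact (flatFamily h (congruence (p * M₀) p) (noFlatHom hP hp3 h4 hpM)).levelNoHom

/-- The Hecke algebra of a multiple of the level of a point acts on the point. -/
theorem exists_pointHom {θK : H.algebra →+* KBar O} (Q : Point (p := p) H hS θK) {N : ℕ}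
    [NeZero N] (hdvd : Q.M ∣ N) {S₁ : Finset ℕ} (hNS : ∀ v : ℕ, v.Prime → v ∣ N → v ∈ S₁) :
    ∃ r : CuspForm.heckeAlgebra N 2 (↑S₁ : Set ℕ) →+* Q.R,
      ∀ (ℓ : ℕ) (hℓ : ℓ.Prime) (hℓN : ¬ ℓ ∣ N) (hℓS : ℓ ∉ (↑S₁ : Set ℕ)),
        Q.emb (Q.j (r (CuspForm.heckeAlgebra.T hℓ hℓN hℓS))) = qCoeff Q.g ℓ := by
  obtain ⟨r, hr⟩ := OrdinaryAtP.exists_restrictHom hdvd (Finset.Subset.refl S₁) hNS
  refine ⟨Q.θ'.comp ((GaloisReps.toFull (↑S₁ : Set ℕ)).toRingHom.comp r),
    fun ℓ hℓ hℓN hℓS => ?_⟩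
  rw [RingHom.comp_apply, Q.emb_θ', RingHom.comp_apply, hr ℓ hℓ hℓN hℓS]
  show ConductorLevel.eigenChar Q.isNewform.1 ∅ (GaloisReps.toFull _ _) = _
  rw [NewformLocal.eigenChar_toFull, ConductorLevel.eigenChar_T]

/-- The twisted eigenvalue at a point is the coefficient of its newform. -/
theorem emb_sA {θK : H.algebra →+* KBar O} (Q : Point (p := p) H hS θK) {ℓ : ℕ} (hℓ : ℓ.Prime)
    (hℓS : ℓ ∉ S) : Q.emb (θK (sA H hS hℓ hℓS)) = qCoeff Q.g ℓ := by
  have hℓM : ¬ ℓ ∣ Q.M := fun h => hℓS (hS ℓ hℓ (hℓ.dvd_of_dvd_pow (h.trans Q.dvd)))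
  rw [← Q.value hℓ hℓS, Q.emb_θ', HeckeDuality.heckeOp, dif_neg hℓM]
  exact ConductorLevel.eigenChar_T Q.isNewform.1 hℓ hℓM _

/-- **The unit root at a point.** -/
theorem point_unitRoot (G : Glued D pt) (hp : (p : O) ∈ maximalIdeal O) (hΔ : IsPGroup p Δ)
    (hp3 : 3 ≤ p) (hpS : p ∈ S)
    (hres : (GaloisRepAdic.ofResidualGaloisRep G.rep.residual).IsOrdinaryAt p)
    {θ : H.algebra →ₐ[O] KBar O} (Q : Point (p := p) H hS θ.toRingHom)
    {A : ValuationSubring QBar} (hA : A.LiesOverPrime p) {F : GQ} (hF : A.IsFrobeniusAt F p)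
    (b : Basis (Fin 2) H.algebra G.rep.V)
    (hI : ∀ τ ∈ A.inertiaSubgroupIn ℚ, ∀ v, G.rep.ρ τ v - v ∈ H.algebra ∙ b 0)
    (hD : ∀ σ ∈ A.decompositionSubgroup ℚ, G.rep.ρ σ (b 0) ∈ H.algebra ∙ b 0)
    {α : H.algebra} (ha : ∀ v, G.rep.ρ F v - α • v ∈ H.algebra ∙ b 0) :
    (¬ p ∣ Q.M → Q.emb (θ α) ^ 2 - qCoeff Q.g p * Q.emb (θ α) + p = 0) ∧
      (p ∣ Q.M → ¬ p ^ 2 ∣ Q.M → θ α * θ α = 1) := by
  classical
  have hpr : p.Prime := Fact.out
  obtain ⟨hM0, hpM⟩ := levelAway_spec (p := p) (L := L) hp3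
  set M₀ : ℕ := 4 * (L ^ 2 / p ^ (L ^ 2).factorization p) with hM₀
  have h4 : 4 ∣ M₀ := dvd_mul_right 4 _
  have : NeZero M₀ := ⟨hM0⟩
  have : NeZero (p * M₀) := ⟨mul_ne_zero hpr.ne_zero hM0⟩
  have : IsNoetherianRing H.algebra := isNoetherian_of_tower O inferInstance
  -- the ring generated by the values of the point and of the newform
  let jQ : Q.R →ₐ[O] KBar O :=
    { Q.j with commutes' := fun c => RingHom.congr_fun Q.j_algebraMap c }
  let T : Subalgebra O (KBar O) := θ.range ⊔ jQ.range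
  have : Module.Finite O θ.range := Module.Finite.range θ.toLinearMap
  have : Module.Finite O jQ.range := Module.Finite.range jQ.toLinearMap
  have : Module.Finite O T := Subalgebra.finite_sup θ.range jQ.range
  have : IsLocalRing T := isLocalRing_of_finite_domain O T
  have : IsNoetherianRing T := IsNoetherianRing.of_finite O T
  let φA : H.algebra →ₐ[O] T :=
    θ.codRestrict T fun x => (le_sup_left : θ.range ≤ T) ⟨x, rfl⟩
  let φ : H.algebra →+* T := φA.toRingHom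
  let jT : Q.R →+* T :=
    (jQ.codRestrict T fun x => (le_sup_right : jQ.range ≤ T) ⟨x, rfl⟩).toRingHom
  have hφ : IsLocalHom φ := by
    have hint : φ.IsIntegral := by
      refine RingHom.IsIntegral.tower_top (algebraMap O H.algebra) φ ?_
      rw [show φ.comp (algebraMap O H.algebra) = algebraMap O T from φA.comp_algebraMap]
      exact algebraMap_isIntegral_iff.mpr inferInstance
    let := φ.toAlgebra
    have : Algebra.IsIntegral H.algebra T := algebraMap_isIntegral_iff.mp hint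
    refine ((IsLocalRing.local_hom_TFAE φ).out 0 4).mpr ?_
    exact IsLocalRing.eq_maximalIdeal
      (Ideal.isMaximal_comap_of_isIntegral_of_isMaximal (R := H.algebra) (maximalIdeal T))
  -- the representation over that ring
  set M : GQ →* Deform.M2 T := Deform.mapM φ (Deform.matOf G.rep b) with hM
  have hc : Deform.IsCont M := (Deform.isCont_matOf G.rep b).map φ hφ
  let ρ := Deform.toRep M hc
  have hMe : ∀ σ i j, M σ i j = φ (b.repr (G.rep.ρ σ (b j)) i) := fun σ i j => by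
    rw [hM, Deform.mapM_apply, Deform.matOf_apply]
  have hval : ∀ σ (w : Fin 2 → T), Matrix.mulVec (M σ) w 1 = M σ 1 0 * w 0 + M σ 1 1 * w 1 :=
    fun σ w => by simp [Matrix.mulVec, dotProduct]
  have hinert : ∀ τ ∈ A.inertiaSubgroupIn ℚ, M τ 1 0 = 0 ∧ M τ 1 1 = 1 := fun τ hτ => by
    have h : ∀ j, b.repr (G.rep.ρ τ (b j)) 1 = b.repr (b j) 1 := fun j => by
      have := repr_one_eq_of_sub_mem b (hI τ hτ (b j))
      rwa [map_sub, Finsupp.sub_apply, sub_eq_zero] at this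
    constructor <;> rw [hMe, h, Basis.repr_self]
    · rw [Finsupp.single_eq_of_ne (by decide), map_zero]
    · rw [Finsupp.single_eq_same, map_one]
  have hF0 : M F 1 0 = 0 := by
    rw [hMe, repr_one_eq_of_sub_mem b (hD F hF.mem_decompositionSubgroup), map_zero]
  have hF1 : M F 1 1 = φ α := by
    rw [hMe]
    have := repr_one_eq_of_sub_mem b (ha (b 1))
    rw [map_sub, map_smul, Finsupp.sub_apply, Finsupp.smul_apply, sub_eq_zero, Basis.repr_self,
      Finsupp.single_eq_same, smul_eq_mul, mul_one] at this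
    rw [this]
  let ℓ₁ : (Fin 2 → T) →ₗ[T] T := LinearMap.proj 1
  let Ln : Submodule T ρ.V := LinearMap.ker ℓ₁
  have hLn : ∀ τ ∈ A.inertiaSubgroupIn ℚ, ∀ v, ρ.ρ τ v - v ∈ Ln := fun τ hτ v => by
    let w : Fin 2 → T := v
    show Matrix.mulVec (M τ) w 1 - w 1 = 0
    rw [hval, (hinert τ hτ).1, (hinert τ hτ).2]
    ring
  let e₁ : Fin 2 → T := Pi.single 1 1
  have he₁ : Matrix.mulVec (M F) e₁ 1 = φ α := by
    rw [hval, hF0, hF1]
    simp [e₁]
  have he₂ : Matrix.mulVec (M F) (Matrix.mulVec (M F) e₁) 1 = φ α * φ α := by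
    rw [hval, hF0, hF1, he₁]
    ring
  have hpT : (p : T) ∈ maximalIdeal T := by
    have hpH : (p : H.algebra) ∈ maximalIdeal H.algebra := (G.detIsCyclotomic hp hΔ).1
    rw [← map_natCast φ p]
    exact map_nonunit φ _ hpH
  have hres' : (GaloisRepAdic.ofResidualGaloisRep ρ.residual).IsOrdinaryAt p :=
    Lower.isOrdinaryAt_residual_of_matrices (ResidueField.map φ)
      (b.baseChange (ResidueField H.algebra)) hc (fun σ => by
        show (M σ).map (residue T) =
          (Deform.matRes G.rep.residual (b.baseChange (ResidueField H.algebra)) σ).map _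
        rw [Deform.matRes_residual]
        ext i j
        rfl) hres
  have hchar : ∀ σ, LinearMap.charpoly (ρ.ρ σ) = (LinearMap.charpoly (G.rep.ρ σ)).map φ :=
    fun σ => by
      rw [← LinearMap.charpoly_toMatrix (G.rep.ρ σ) b, ← Matrix.charpoly_map]
      let b₀ : Basis (Fin 2) T ρ.V := Pi.basisFun T (Fin 2)
      rw [← LinearMap.charpoly_toMatrix (ρ.ρ σ) b₀]
      exact congrArg Matrix.charpoly (DFunLike.congr_fun (Deform.matOf_toRep M hc) σ)
  have htr : ∀ σ, LinearMap.trace T ρ.V (ρ.ρ σ) =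
      φ (LinearMap.trace H.algebra G.rep.V (G.rep.ρ σ)) := fun σ => by
    rw [LinearMap.trace_eq_matrix_trace H.algebra b, AddMonoidHom.map_trace φ]
    show LinearMap.trace T (Fin 2 → T) (Matrix.toLin' (M σ)) = _
    rw [Matrix.trace_toLin'_eq]
    rfl
  have habs' : ρ.residual.IsAbsolutelyIrreducible := by
    obtain ⟨k, g, h, hu⟩ := G.exists_trace_commutator
    refine isAbsolutelyIrreducible_of_trace_commutator _ ⟨k, g, h, ?_⟩
    rw [htr, htr, ← map_sub]
    exact hu.map φ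
  -- the values on Hecke operators
  have hT : ∀ (N : ℕ) [NeZero N] (S₁ : Finset ℕ), S ⊆ S₁ →
      ∀ π : CuspForm.heckeAlgebra N 2 (↑S₁ : Set ℕ) →+* T,
      (∀ (ℓ : ℕ) (hℓ : ℓ.Prime) (hℓN : ¬ ℓ ∣ N) (hℓS : ℓ ∉ (↑S₁ : Set ℕ)),
        Q.emb (π (CuspForm.heckeAlgebra.T hℓ hℓN hℓS) : KBar O) = qCoeff Q.g ℓ) →
      FrobCharpoly ρ π := fun N _ S₁ hSS π hπ ℓ hℓ hℓN hℓS A' hA' σ hσ => by
    have e : π (CuspForm.heckeAlgebra.T hℓ hℓN hℓS) = φ (sA H hS hℓ fun h => hℓS (hSS h)) :=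
      Subtype.ext (Q.emb.injective ((hπ ℓ hℓ hℓN hℓS).trans (emb_sA Q hℓ _).symm))
    rw [hchar, G.charpoly_frobenius hpS hℓ (fun h => hℓS (hSS h)) hA' hσ, e]
    simp
  refine ⟨fun hpQ => ?_, fun hpQ hsq => ?_⟩
  · set S₁ : Finset ℕ := S ∪ M₀.primeFactors
    have hNS : ∀ v : ℕ, v.Prime → v ∣ M₀ → v ∈ S₁.erase p := fun v hv h =>
      Finset.mem_erase.2 ⟨fun e => hpM (e ▸ h),
        Finset.mem_union_right _ (Nat.mem_primeFactors.mpr ⟨hv, h, NeZero.ne _⟩)⟩
    obtain ⟨r, hr⟩ := exists_pointHom Q ((dvd_levelAway Q.dvd).1 hpQ) hNS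
    have hsub : (↑(S₁.erase p) : Set ℕ) ⊆ ↑S₁ := Finset.coe_subset.2 (Finset.erase_subset p S₁)
    let π' := jT.comp r
    let π := π'.comp (heckeIncl (N := M₀) hsub).toRingHom
    have hfrob : FrobCharpoly ρ π :=
      hT M₀ S₁ Finset.subset_union_left π fun ℓ hℓ hℓN hℓS => by
        show Q.emb (Q.j (r (heckeIncl hsub _))) = _
        rw [show heckeIncl (N := M₀) hsub (CuspForm.heckeAlgebra.T hℓ hℓN hℓS) =
          CuspForm.heckeAlgebra.T hℓ hℓN (fun h => hℓS (hsub h)) from Subtype.ext rfl, hr]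
    have h1 := quadratic_mem (T := T) hp3 h4 hpM hA (congruence M₀ p) (noFlatHom hA hp3 h4 hpM) hsub
      (Finset.notMem_erase p S₁) ρ habs' hpT π hfrob hres' π' (fun _ => rfl) hF Ln hLn e₁
    set a := π' (CuspForm.heckeAlgebra.T hpr hpM (by simp))
    replace h1 : (Matrix.mulVec (M F) (Matrix.mulVec (M F) e₁) - a • Matrix.mulVec (M F) e₁ +
        (p : T) • e₁) 1 = 0 := h1
    rw [Pi.add_apply, Pi.sub_apply, Pi.smul_apply, Pi.smul_apply, he₂, he₁, smul_eq_mul,
      smul_eq_mul, show e₁ 1 = 1 from Pi.single_eq_same _ _, mul_one] at h1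
    have h2 := congrArg (fun x : T => Q.emb (x : KBar O)) h1
    simp only [Subalgebra.coe_add, Subalgebra.coe_sub, Subalgebra.coe_mul, Subalgebra.coe_zero,
      map_add, map_sub, map_mul, map_zero] at h2
    rw [show ((p : T) : KBar O) = (p : KBar O) from map_natCast T.val p, map_natCast] at h2
    have e : Q.emb (a : KBar O) = qCoeff Q.g p := hr p hpr hpM _
    rw [e, ← sq] at h2
    exact h2
  · set S₁ : Finset ℕ := S ∪ (p * M₀).primeFactors
    have hNS : ∀ v : ℕ, v.Prime → v ∣ p * M₀ → v ∈ S₁ := fun v hv h =>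
      Finset.mem_union_right _ (Nat.mem_primeFactors.mpr ⟨hv, h, NeZero.ne _⟩)
    obtain ⟨r, hr⟩ := exists_pointHom Q ((dvd_levelAway Q.dvd).2 hsq) hNS
    let π := jT.comp r
    have hfrob : FrobCharpoly ρ π := hT (p * M₀) S₁ Finset.subset_union_left π hr
    let χ : CuspForm.heckeAlgebra (p * M₀) 2 (↑S₁ : Set ℕ) →+* ℂ :=
      Q.emb.toRingHom.comp (Q.j.comp r)
    obtain ⟨t, ht, htχ⟩ := NewformLocal.exists_kills_of_not_occurs (dvd_mul_left M₀ p) hNS χ
      fun f hf => by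
        obtain ⟨ℓ, hℓ, hℓT, hne⟩ := NewformLocal.exists_qCoeff_ne_of_not_dvd_level hpr hpQ hsq
          hpM Q.isNewform hf S₁
        refine ⟨ℓ, hℓ, fun hd => hℓT (hNS ℓ hℓ hd), hℓT, ?_⟩
        show _ ≠ Q.emb (Q.j (r _))
        rw [hr]
        exact hne.symm
    have h1 := mul_frobenius_sq_sub_mem (T := T) hp3 h4 hpM hA (fun K _ => congruence K p)
      (noFlatHom hA hp3 h4 hpM) (Finset.mem_union_left _ hpS) hNS ρ habs' hpT π hfrob hres' hF t
      ht Ln hLn e₁
    replace h1 : (π t • (Matrix.mulVec (M F) (Matrix.mulVec (M F) e₁) - e₁)) 1 = 0 := h1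
    rw [Pi.smul_apply, Pi.sub_apply, he₂, show e₁ 1 = 1 from Pi.single_eq_same _ _,
      smul_eq_mul] at h1
    have h2 : φ α * φ α - 1 = 0 := (mul_eq_zero.1 h1).resolve_left fun h0 => htχ (by
      show Q.emb ((π t : T) : KBar O) = 0
      rw [h0, Subalgebra.coe_zero, map_zero])
    exact congrArg Subtype.val (sub_eq_zero.1 h2)

end Fermat.Agent.RT.Lift.AtP

end
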