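import Fermat.Agent.GaloisReps.Relations

/-!
# Mixed relations between Galois elements and Hecke operators

If `∑ xᵢ uᵢ = 0` on the model modulo a high power of `p`, with `xᵢ` in the group ring and `uᵢ`
Hecke operators (possibly at more primes than those where the representation is matched), then
`∑ π'(uᵢ) ρ(xᵢ)` is divisible by a given power of the maximal ideal.
-/

set_option autoImplicit false

noncomputable section

open Module
open scoped MonoidAlgebra
open Fermat.Agent.GaloisReps

namespace Fermat.Agent.RT.Lift.AtP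

variable {p : ℕ} [Fact p.Prime] {N : ℕ} [NeZero N] {S S' : Finset ℕ}
  {T : Type} [CommRing T] [IsLocalRing T]

/-- The inclusion of Hecke algebras for nested sets of excluded primes. -/
def heckeIncl (hS : (↑S' : Set ℕ) ⊆ ↑S) :
    CuspForm.heckeAlgebra N 2 (↑S : Set ℕ) →ₐ[ℤ] CuspForm.heckeAlgebra N 2 (↑S' : Set ℕ) :=
  Subalgebra.inclusion (CuspForm.heckeAlgebra_mono hS)

theorem heckeLevel_heckeIncl (hS : (↑S' : Set ℕ) ⊆ ↑S) (D : HeckeGaloisModel N p) (M : ℕ)
    (t : CuspForm.heckeAlgebra N 2 (↑S : Set ℕ)) :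
    heckeLevel D M (heckeIncl hS t) = heckeLevel D M t := by
  unfold heckeLevel
  simp only [RingHom.coe_comp, Function.comp_apply]
  refine congrArg _ (congrArg _ ?_)
  exact Subalgebra.inclusion_inclusion _ _ t

set_option maxHeartbeats 800000 in
/-- Mixed relations on the model hold in the representation. -/
theorem relations_transfer_sum (D : HeckeGaloisModel N p) (ρ : GaloisRepAdic T)
    (habs : ρ.residual.IsAbsolutelyIrreducible)
    (hpT : (p : T) ∈ IsLocalRing.maximalIdeal T)
    (π : CuspForm.heckeAlgebra N 2 (↑S : Set ℕ) →+* T) (hfrob : FrobCharpoly ρ π)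
    (hS : (↑S' : Set ℕ) ⊆ ↑S) (π' : CuspForm.heckeAlgebra N 2 (↑S' : Set ℕ) →+* T)
    (hπ : ∀ t, π' (heckeIncl hS t) = π t) (n : ℕ) :
    ∃ M₀ : ℕ, ∀ M, M₀ ≤ M → ∀ (r : ℕ) (x : Fin r → ℤ[AbsGal])
      (u : Fin r → CuspForm.heckeAlgebra N 2 (↑S' : Set ℕ)),
      ∑ i, galAlg D M (x i) * heckeLevel D M (u i) = 0 →
      ∀ v, ∑ i, π' (u i) • repAlg ρ (x i) v ∈
        IsLocalRing.maximalIdeal T ^ n • (⊤ : Submodule T ρ.V) := by
  classical
  obtain ⟨k, hsat⟩ := exists_saturation_of D hpT π'
  refine ⟨n + 1 + k, fun M hM r x₀ u hx₀ => ?_⟩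
  have : NeZero (p ^ M) := ⟨pow_ne_zero _ (Fact.out : p.Prime).ne_zero⟩
  obtain ⟨ζ, hζ⟩ := exists_primitiveRoot (p ^ M)
  let χ : AbsGal →* (ZMod (p ^ M))ˣ := hζ.autToPow ℚ
  choose t₀ hMt₀ htr₀ using exists_heckeLevel_eq D ρ π hfrob hζ
  let t : AbsGal → CuspForm.heckeAlgebra N 2 (↑S' : Set ℕ) := fun g => heckeIncl hS (t₀ g)
  let Mt := heckeLevel (S := S') D M
  have hMt : ∀ g, Mt (t g) = galLevel D M g + (χ g : ZMod (p ^ M)) • galLevel D M g⁻¹ := fun g =>
    (heckeLevel_heckeIncl hS D M (t₀ g)).trans (hMt₀ g)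
  have htr : ∀ g, LinearMap.trace T ρ.V (ρ.ρ g) - π' (t g) ∈ IsLocalRing.maximalIdeal T ^ M :=
    fun g => by rw [hπ]; exact htr₀ g
  let e : AbsGal → Matrix (Fin D.d) (Fin D.d) (ZMod (p ^ M)) :=
    fun g => (χ g : ZMod (p ^ M)) • galLevel D M g⁻¹
  have hcomm : ∀ g u, galLevel D M g * Mt u = Mt u * galLevel D M g :=
    galLevel_mul_heckeLevel D M
  have heU : ∀ g v, e g * Mt v = Mt v * e g := fun g v => by
    simp only [e, mul_smul_comm, smul_mul_assoc]
    rw [hcomm]
  have he : ∀ g h, e (g * h) = e h * e g := fun g h => by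
    simp only [e, map_mul, mul_inv_rev, Units.val_mul, smul_mul_assoc, mul_smul_comm, smul_smul]
  -- linear extensions
  let eA : ℤ[AbsGal] →+ Matrix (Fin D.d) (Fin D.d) (ZMod (p ^ M)) :=
    (Finsupp.linearCombination ℤ e).toAddMonoidHom.comp
      MonoidAlgebra.coeffAddEquiv.toAddMonoidHom
  let tA : ℤ[AbsGal] →+ CuspForm.heckeAlgebra N 2 (↑S' : Set ℕ) :=
    (Finsupp.linearCombination ℤ t).toAddMonoidHom.comp
      MonoidAlgebra.coeffAddEquiv.toAddMonoidHom
  have heA : ∀ g r, eA (MonoidAlgebra.single g r) = r • e g := fun g r => by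
    simp [eA, MonoidAlgebra.coeffAddEquiv]
  have htA : ∀ g r, tA (MonoidAlgebra.single g r) = r • t g := fun g r => by
    simp [tA, MonoidAlgebra.coeffAddEquiv]
  have hsplit : ∀ x, Mt (tA x) = galAlg D M x + eA x := by
    intro x
    induction x using MonoidAlgebra.induction_linear with
    | zero => simp
    | add x y hx hy => simp only [map_add, hx, hy]; abel
    | single g r =>
      rw [htA, map_zsmul, galAlg_single, heA, ← smul_add]
      exact congrArg _ (hMt g)
  have hmul : ∀ g x, eA (MonoidAlgebra.single g 1 * x) = eA x * e g := by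
    intro g x
    induction x using MonoidAlgebra.induction_linear with
    | zero => simp
    | add x y hx hy => rw [mul_add, map_add, map_add, hx, hy, add_mul]
    | single h r =>
      rw [MonoidAlgebra.single_mul_single, one_mul, heA, heA, he, smul_mul_assoc r (e h) (e g)]
  have htrace : ∀ x, π' (tA x) - LinearMap.trace T ρ.V (repAlg ρ x) ∈
      IsLocalRing.maximalIdeal T ^ M := by
    intro x
    induction x using MonoidAlgebra.induction_linear with
    | zero => simp
    | add x y hx hy =>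
      simp only [map_add]
      rw [add_sub_add_comm]
      exact Ideal.add_mem _ hx hy
    | single g r =>
      rw [htA, map_zsmul, repAlg_single, map_zsmul, ← smul_sub]
      refine zsmul_mem ?_ r
      rw [← neg_sub]
      exact neg_mem (htr g)
  have hle : IsLocalRing.maximalIdeal T ^ M ≤ IsLocalRing.maximalIdeal T ^ (n + 1) :=
    Ideal.pow_le_pow_right ((Nat.le_add_right _ k).trans hM)
  have hle' : IsLocalRing.maximalIdeal T ^ (n + 1) ≤ IsLocalRing.maximalIdeal T ^ n :=
    Ideal.pow_le_pow_right n.le_succ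
  obtain ⟨k₀, g₀, h₀, hu⟩ := exists_isUnit_trace_commutator ρ habs
  have key : ∀ x : Fin r → ℤ[AbsGal], ∑ i, galAlg D M (x i) * Mt (u i) = 0 →
      ∑ i, π' (u i) * LinearMap.trace T ρ.V (repAlg ρ (x i)) ∈
        IsLocalRing.maximalIdeal T ^ n := by
    intro x hx
    set w := ∑ i, tA (x i) * u i with hw
    set τ := Mt w with hτdef
    have hτ : ∑ i, eA (x i) * Mt (u i) = τ := by
      rw [hτdef, hw, map_sum]
      simp only [map_mul, hsplit, add_mul, Finset.sum_add_distrib, hx, zero_add]
    have hscal : ∀ g, Mt (∑ i, tA (MonoidAlgebra.single g 1 * x i) * u i) = τ * e g := fun g => by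
      simp only [map_sum, map_mul, hsplit, hmul, add_mul, Finset.sum_add_distrib, mul_assoc,
        ← Finset.mul_sum, hx, mul_zero, zero_add, heU]
      rw [← hτ, Finset.sum_mul]
      exact Finset.sum_congr rfl fun i _ => (mul_assoc _ _ _).symm
    have hA : ∀ g h, τ * galLevel D M g⁻¹ * galLevel D M h =
        galLevel D M h * (τ * galLevel D M g⁻¹) := fun g h => by
      have h2 := hcomm h (∑ i, tA (MonoidAlgebra.single g 1 * x i) * u i)
      rw [hscal] at h2
      simp only [e, mul_smul_comm, smul_mul_assoc] at h2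
      exact ((χ g).isUnit.smul_left_cancel.mp h2).symm
    have hab : ∀ g h, τ * (galLevel D M g * galLevel D M h) =
        τ * (galLevel D M h * galLevel D M g) := fun g h => by
      have h2 := hA g⁻¹ h
      rw [inv_inv, ← mul_assoc (galLevel D M h), hcomm h w] at h2
      rw [← mul_assoc, h2, mul_assoc]
    have habe : ∀ g h, τ * (e g * e h) = τ * (e h * e g) := fun g h => by
      simp only [e, mul_smul_comm, smul_mul_assoc, smul_smul, hab g⁻¹ h⁻¹]
      rw [mul_comm]
    have hzero : Mt (w * (t (k₀ * g₀ * h₀) - t (g₀ * k₀ * h₀))) = 0 := by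
      have h1 : τ * galLevel D M (k₀ * g₀ * h₀) = τ * galLevel D M (g₀ * k₀ * h₀) := by
        simp only [map_mul]
        rw [← mul_assoc τ, ← mul_assoc τ (galLevel D M g₀ * galLevel D M k₀), hab]
      have h2 : τ * e (k₀ * g₀ * h₀) = τ * e (g₀ * k₀ * h₀) := by
        have hc : τ * e h₀ = e h₀ * τ := (heU _ _).symm
        rw [he (k₀ * g₀), he (g₀ * k₀), he k₀, he g₀, ← mul_assoc τ, ← mul_assoc τ (e h₀), hc,
          mul_assoc (e h₀), mul_assoc (e h₀), habe]
      rw [map_mul, map_sub, ← hτdef, hMt, hMt, mul_sub, mul_add, mul_add]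
      show _ + τ * e _ - (_ + τ * e _) = 0
      rw [h1, h2, sub_self]
    have hπ1 := hsat (M - k) _
      (by rw [Nat.sub_add_cancel ((Nat.le_add_left k _).trans hM)]; exact hzero)
    have hπ2 := Ideal.pow_le_pow_right (Nat.le_sub_of_add_le hM) hπ1
    rw [map_mul, map_sub] at hπ2
    set d := π' (t (k₀ * g₀ * h₀)) - π' (t (g₀ * k₀ * h₀)) with hd
    have hdu : IsUnit d := by
      by_contra hd'
      refine (IsLocalRing.mem_maximalIdeal _).mp ?_ hu
      have hM1 : IsLocalRing.maximalIdeal T ^ M ≤ IsLocalRing.maximalIdeal T :=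
        Ideal.pow_le_self (lt_of_lt_of_le (Nat.add_pos_left n.succ_pos k) hM).ne'
      have := (IsLocalRing.maximalIdeal T).add_mem
        ((IsLocalRing.mem_maximalIdeal d).mpr hd')
        ((IsLocalRing.maximalIdeal T).sub_mem (hM1 (htr (k₀ * g₀ * h₀)))
          (hM1 (htr (g₀ * k₀ * h₀))))
      convert this using 1
      rw [hd]; ring
    have hπw : π' w ∈ IsLocalRing.maximalIdeal T ^ (n + 1) := by
      obtain ⟨c, hc⟩ := hdu
      have := Ideal.mul_mem_right (↑c⁻¹ : T) _ hπ2
      rwa [← hc, mul_assoc, Units.mul_inv, mul_one] at this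
    have hdiff : π' w - ∑ i, π' (u i) * LinearMap.trace T ρ.V (repAlg ρ (x i)) ∈
        IsLocalRing.maximalIdeal T ^ (n + 1) := by
      rw [hw, map_sum, ← Finset.sum_sub_distrib]
      refine Ideal.sum_mem _ fun i _ => ?_
      rw [map_mul, mul_comm (π' (tA (x i))), ← mul_sub]
      exact Ideal.mul_mem_left _ _ (hle (htrace (x i)))
    have := (IsLocalRing.maximalIdeal T ^ (n + 1)).sub_mem hπw hdiff
    rw [sub_sub_cancel] at this
    exact hle' this
  intro v
  have hX : ∑ i, π' (u i) • repAlg ρ (x₀ i) v = (∑ i, π' (u i) • repAlg ρ (x₀ i)) v := by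
    simp only [LinearMap.sum_apply, LinearMap.smul_apply]
  rw [hX]
  refine mem_smul_of_forall_trace_comp ρ habs _ _ (fun σ => ?_) v
  have h := key (fun i => MonoidAlgebra.single σ 1 * x₀ i) (by
    simp only [map_mul, mul_assoc, ← Finset.mul_sum]
    rw [hx₀, mul_zero])
  simp only [Finset.mul_sum, mul_smul_comm, map_sum, map_smul, smul_eq_mul]
  convert h using 2 with i
  rw [map_mul (repAlg ρ), repAlg_single, one_smul]

end Fermat.Agent.RT.Lift.AtP

end
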